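import Mathlib
import Fermat.Prelude.Def_FLTPrelim_Modularity
import Fermat.Prelude.Def_ModularForm_HeckeOperator

/-!
# Integral structure project (S22/S23): basic definitions

Everything is phrased for *functions* `ℍ → ℂ` together with predicates, to avoid
weight-cast problems with bundled modular forms.
-/

set_option autoImplicit false

noncomputable section

namespace Fermat.Agent.S22

open UpperHalfPlane ModularFormClass CongruenceSubgroup Matrix.SpecialLinearGroup
open scoped MatrixGroups ModularForm Manifold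

/-- `f` has an integral `q`-expansion (period 1). -/
def IsIntQ (f : ℍ → ℂ) : Prop := ∀ n : ℕ, ∃ m : ℤ, (qExpansion 1 f).coeff n = (m : ℂ)

/-- `f` has a rational `q`-expansion (period 1). -/
def IsRatQ (f : ℍ → ℂ) : Prop := ∀ n : ℕ, ∃ r : ℚ, (qExpansion 1 f).coeff n = (r : ℂ)

/-- `f` is the underlying function of a modular form of level `Γ` and weight `k`. -/
def IsMF (Γ : Subgroup (GL (Fin 2) ℝ)) (k : ℤ) (f : ℍ → ℂ) : Prop :=
  ∃ F : ModularForm Γ k, ⇑F = f

/-- `f` is the underlying function of a cusp form of level `Γ` and weight `k`. -/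
def IsCF (Γ : Subgroup (GL (Fin 2) ℝ)) (k : ℤ) (f : ℍ → ℂ) : Prop :=
  ∃ F : CuspForm Γ k, ⇑F = f

/-- The `ℂ`-span (inside all functions) of the modular forms of level `Γ`, weight `k` having
integral `q`-expansion. -/
def IntSpan (Γ : Subgroup (GL (Fin 2) ℝ)) (k : ℤ) : Submodule ℂ (ℍ → ℂ) :=
  Submodule.span ℂ {f | IsMF Γ k f ∧ IsIntQ f}

/-- The level `Γ₀(N)` as a subgroup of `GL(2,ℝ)`. -/
abbrev G0 (N : ℕ) : Subgroup (GL (Fin 2) ℝ) := (Gamma0 N : Subgroup (GL (Fin 2) ℝ))

/-- The level `SL(2,ℤ)` as a subgroup of `GL(2,ℝ)`. -/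
abbrev G1 : Subgroup (GL (Fin 2) ℝ) := 𝒮ℒ

/-- `D = E₄³ - E₆² = 1728 Δ`, a level one form of weight 12 with integral `q`-expansion and
no zeros on `ℍ`. -/
def Dfun : ℍ → ℂ := fun z => ModularForm.E₄ z ^ 3 - ModularForm.E₆ z ^ 2

/-- `D_N(z) = D(N z)`, a form of weight 12 and level `Γ₀(N)` with integral `q`-expansion. -/
def DNfun (N : ℕ) : ℍ → ℂ := fun z => Dfun (ModularForm.heckeDiagMatrix N • z)

end Fermat.Agent.S22
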