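import Mathlib
import Fermat.Agent.S22.Basic
import Fermat.Prelude.Thm_CongruenceSubgroup_one_mem_strictPeriods_Gamma0

/-!
# Nice functions: `1`-periodic, holomorphic, bounded at `i∞`

On such functions `qExpansion 1` is an injective ring homomorphism.
-/

set_option autoImplicit false

noncomputable section

namespace Fermat.Agent.S22

open UpperHalfPlane ModularFormClass CongruenceSubgroup Matrix.SpecialLinearGroup Function
open scoped MatrixGroups ModularForm Manifold

/-- A function on `ℍ` is *nice* if it is `1`-periodic, holomorphic and bounded at `i∞`. -/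
structure IsNice (f : ℍ → ℂ) : Prop where
  per : Periodic (f ∘ ofComplex) 1
  holo : MDiff f
  bdd : IsBoundedAtImInfty f

namespace IsNice

variable {f g : ℍ → ℂ}

theorem analyticAt (hf : IsNice f) : AnalyticAt ℂ (cuspFunction 1 f) 0 :=
  analyticAt_cuspFunction_zero one_pos hf.per hf.holo hf.bdd

theorem zero : IsNice (0 : ℍ → ℂ) where
  per := fun _ => rfl
  holo := mdifferentiable_const
  bdd := Filter.const_boundedAtFilter atImInfty (0 : ℂ)

theorem const (c : ℂ) : IsNice (fun _ : ℍ => c) where
  per := fun _ => rfl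
  holo := mdifferentiable_const
  bdd := Filter.const_boundedAtFilter atImInfty c

theorem one : IsNice (1 : ℍ → ℂ) := const 1

theorem add (hf : IsNice f) (hg : IsNice g) : IsNice (f + g) where
  per := fun z => by
    have h1 := hf.per z
    have h2 := hg.per z
    simp only [comp_apply, Pi.add_apply] at h1 h2 ⊢
    rw [h1, h2]
  holo := hf.holo.add hg.holo
  bdd := hf.bdd.add hg.bdd

theorem mul (hf : IsNice f) (hg : IsNice g) : IsNice (f * g) where
  per := fun z => by
    have h1 := hf.per z
    have h2 := hg.per z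
    simp only [comp_apply, Pi.mul_apply] at h1 h2 ⊢
    rw [h1, h2]
  holo := hf.holo.mul hg.holo
  bdd := hf.bdd.mul hg.bdd

theorem smul (c : ℂ) (hf : IsNice f) : IsNice (c • f) := by
  have : c • f = (fun _ : ℍ => c) * f := by
    ext z; simp
  rw [this]
  exact (const c).mul hf

theorem neg (hf : IsNice f) : IsNice (-f) := by
  have : -f = (-1 : ℂ) • f := by simp
  rw [this]
  exact hf.smul _

theorem sub (hf : IsNice f) (hg : IsNice g) : IsNice (f - g) := by
  rw [sub_eq_add_neg]
  exact hf.add hg.neg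

theorem pow (hf : IsNice f) (n : ℕ) : IsNice (f ^ n) := by
  induction n with
  | zero => simpa using one
  | succ n ih => rw [pow_succ]; exact ih.mul hf

theorem sum {ι : Type*} (s : Finset ι) {F : ι → ℍ → ℂ} (hF : ∀ i ∈ s, IsNice (F i)) :
    IsNice (∑ i ∈ s, F i) := by
  classical
  induction s using Finset.induction_on with
  | empty => simpa using zero
  | insert a s ha ih =>
    rw [Finset.sum_insert ha]
    exact (hF a (Finset.mem_insert_self a s)).add
      (ih fun i hi => hF i (Finset.mem_insert_of_mem hi))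

theorem qExpansion_add (hf : IsNice f) (hg : IsNice g) :
    qExpansion 1 (f + g) = qExpansion 1 f + qExpansion 1 g :=
  UpperHalfPlane.qExpansion_add hf.analyticAt hg.analyticAt

theorem qExpansion_mul (hf : IsNice f) (hg : IsNice g) :
    qExpansion 1 (f * g) = qExpansion 1 f * qExpansion 1 g :=
  UpperHalfPlane.qExpansion_mul hf.analyticAt hg.analyticAt

theorem qExpansion_smul (c : ℂ) (hf : IsNice f) :
    qExpansion 1 (c • f) = c • qExpansion 1 f :=
  UpperHalfPlane.qExpansion_smul hf.analyticAt c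

theorem qExpansion_neg (hf : IsNice f) :
    qExpansion 1 (-f) = -qExpansion 1 f :=
  UpperHalfPlane.qExpansion_neg hf.analyticAt

theorem qExpansion_sub (hf : IsNice f) (hg : IsNice g) :
    qExpansion 1 (f - g) = qExpansion 1 f - qExpansion 1 g :=
  UpperHalfPlane.qExpansion_sub hf.analyticAt hg.analyticAt

theorem qExpansion_pow (hf : IsNice f) (n : ℕ) :
    qExpansion 1 (f ^ n) = qExpansion 1 f ^ n := by
  induction n with
  | zero => simpa using UpperHalfPlane.qExpansion_one 1
  | succ n ih => rw [pow_succ, (hf.pow n).qExpansion_mul hf, ih, pow_succ]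

theorem qExpansion_sum {ι : Type*} (s : Finset ι) {F : ι → ℍ → ℂ} (hF : ∀ i ∈ s, IsNice (F i)) :
    qExpansion 1 (∑ i ∈ s, F i) = ∑ i ∈ s, qExpansion 1 (F i) := by
  classical
  induction s using Finset.induction_on with
  | empty => simpa using UpperHalfPlane.qExpansion_zero 1
  | insert a s ha ih =>
    rw [Finset.sum_insert ha, Finset.sum_insert ha,
      (hF a (Finset.mem_insert_self a s)).qExpansion_add
        (sum s fun i hi => hF i (Finset.mem_insert_of_mem hi)),
      ih fun i hi => hF i (Finset.mem_insert_of_mem hi)]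

theorem qExpansion_eq_zero_iff (hf : IsNice f) : qExpansion 1 f = 0 ↔ f = 0 :=
  UpperHalfPlane.qExpansion_eq_zero_iff one_pos hf.per hf.holo hf.bdd

theorem eq_of_qExpansion_eq (hf : IsNice f) (hg : IsNice g)
    (h : qExpansion 1 f = qExpansion 1 g) : f = g := by
  have := (hf.sub hg).qExpansion_eq_zero_iff.mp (by rw [hf.qExpansion_sub hg, h, sub_self])
  exact sub_eq_zero.mp this

end IsNice

theorem one_mem_strictPeriods_G0 (N : ℕ) : (1 : ℝ) ∈ (G0 N).strictPeriods :=
  CongruenceSubgroup.one_mem_strictPeriods_Gamma0 N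

theorem one_mem_strictPeriods_G1 : (1 : ℝ) ∈ G1.strictPeriods :=
  _root_.one_mem_strictPeriods_SL

theorem isNice_of_modularForm {Γ : Subgroup (GL (Fin 2) ℝ)} {k : ℤ}
    (hΓ : (1 : ℝ) ∈ Γ.strictPeriods) (F : ModularForm Γ k) : IsNice (⇑F) where
  per := SlashInvariantFormClass.periodic_comp_ofComplex F hΓ
  holo := ModularFormClass.holo F
  bdd :=
    have : Fact (IsCusp OnePoint.infty Γ) := ⟨Γ.isCusp_of_mem_strictPeriods one_pos hΓ⟩
    ModularFormClass.bdd_at_infty F

theorem IsMF.isNice {Γ : Subgroup (GL (Fin 2) ℝ)} {k : ℤ} {f : ℍ → ℂ}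
    (hΓ : (1 : ℝ) ∈ Γ.strictPeriods) (hf : IsMF Γ k f) : IsNice f := by
  obtain ⟨F, rfl⟩ := hf
  exact isNice_of_modularForm hΓ F

theorem IsMF.isNice_G0 {N : ℕ} {k : ℤ} {f : ℍ → ℂ} (hf : IsMF (G0 N) k f) : IsNice f :=
  hf.isNice (one_mem_strictPeriods_G0 N)

theorem IsMF.isNice_G1 {k : ℤ} {f : ℍ → ℂ} (hf : IsMF G1 k f) : IsNice f :=
  hf.isNice one_mem_strictPeriods_G1

end Fermat.Agent.S22
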