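import Mathlib
import Fermat.Agent.S22.Basic
import Fermat.Agent.S22.Nice

/-!
# Closure properties of `IsMF`, `IsIntQ`, `IntSpan`
-/

set_option autoImplicit false

noncomputable section

namespace Fermat.Agent.S22

open UpperHalfPlane ModularFormClass CongruenceSubgroup Matrix.SpecialLinearGroup Function
open scoped MatrixGroups ModularForm Manifold

variable {Γ Γ' : Subgroup (GL (Fin 2) ℝ)} {k l : ℤ} {f g : ℍ → ℂ}

/-! ### `IsMF` -/

theorem IsMF.cast {k' : ℤ} (h : k = k') (hf : IsMF Γ k f) : IsMF Γ k' f := h ▸ hf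

theorem IsMF.zero : IsMF Γ k 0 := ⟨0, rfl⟩

theorem IsMF.add (hf : IsMF Γ k f) (hg : IsMF Γ k g) : IsMF Γ k (f + g) := by
  obtain ⟨F, rfl⟩ := hf
  obtain ⟨G, rfl⟩ := hg
  exact ⟨F + G, rfl⟩

theorem IsMF.neg (hf : IsMF Γ k f) : IsMF Γ k (-f) := by
  obtain ⟨F, rfl⟩ := hf
  exact ⟨-F, rfl⟩

theorem IsMF.sub (hf : IsMF Γ k f) (hg : IsMF Γ k g) : IsMF Γ k (f - g) := by
  obtain ⟨F, rfl⟩ := hf
  obtain ⟨G, rfl⟩ := hg
  exact ⟨F - G, rfl⟩

theorem IsMF.smul [Γ.HasDetOne] (c : ℂ) (hf : IsMF Γ k f) : IsMF Γ k (c • f) := by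
  obtain ⟨F, rfl⟩ := hf
  exact ⟨c • F, rfl⟩

theorem IsMF.sum {ι : Type*} (s : Finset ι) {F : ι → ℍ → ℂ} (hF : ∀ i ∈ s, IsMF Γ k (F i)) :
    IsMF Γ k (∑ i ∈ s, F i) := by
  classical
  induction s using Finset.induction_on with
  | empty => simpa using IsMF.zero
  | insert a s ha ih =>
    rw [Finset.sum_insert ha]
    exact (hF a (Finset.mem_insert_self a s)).add
      (ih fun i hi => hF i (Finset.mem_insert_of_mem hi))

theorem IsMF.mul [Γ.HasDetPlusMinusOne] (hf : IsMF Γ k f) (hg : IsMF Γ l g) :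
    IsMF Γ (k + l) (f * g) := by
  obtain ⟨F, rfl⟩ := hf
  obtain ⟨G, rfl⟩ := hg
  exact ⟨F.mul G, rfl⟩

theorem IsMF.one [Γ.HasDetPlusMinusOne] : IsMF Γ 0 1 := ⟨1, rfl⟩

theorem IsMF.const [Γ.HasDetOne] (c : ℂ) : IsMF Γ 0 (fun _ => c) := ⟨ModularForm.const c, rfl⟩

theorem IsMF.pow [Γ.HasDetPlusMinusOne] (hf : IsMF Γ k f) (n : ℕ) : IsMF Γ (k * n) (f ^ n) := by
  induction n with
  | zero => simpa using IsMF.one
  | succ n ih =>
    rw [pow_succ]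
    exact (ih.mul hf).cast (by push_cast; ring)

theorem IsMF.restrict (h : Γ' ≤ Γ) (hf : IsMF Γ k f) : IsMF Γ' k f := by
  obtain ⟨F, rfl⟩ := hf
  exact ⟨{ toFun := F
           slash_action_eq' := fun γ hγ => F.slash_action_eq' γ (h hγ)
           holo' := F.holo'
           bdd_at_cusps' := fun hc => F.bdd_at_cusps' (hc.mono h) }, rfl⟩

theorem G0_le_G1 (N : ℕ) : G0 N ≤ G1 := by
  rintro _ ⟨γ, -, rfl⟩
  exact ⟨γ, rfl⟩

theorem IsMF.restrict_G0 (N : ℕ) (hf : IsMF G1 k f) : IsMF (G0 N) k f :=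
  hf.restrict (G0_le_G1 N)

/-! ### `IsIntQ` -/

theorem IsIntQ.zero : IsIntQ 0 := fun n => ⟨0, by simp [UpperHalfPlane.qExpansion_zero]⟩

theorem IsIntQ.one : IsIntQ 1 := fun n => by
  rw [UpperHalfPlane.qExpansion_one]
  by_cases h : n = 0
  · exact ⟨1, by simp [h]⟩
  · exact ⟨0, by simp [PowerSeries.coeff_one, h]⟩

theorem IsIntQ.add (hf : IsIntQ f) (hg : IsIntQ g) (hfn : IsNice f) (hgn : IsNice g) :
    IsIntQ (f + g) := fun n => by
  obtain ⟨a, ha⟩ := hf n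
  obtain ⟨b, hb⟩ := hg n
  exact ⟨a + b, by rw [hfn.qExpansion_add hgn, map_add, ha, hb]; push_cast; ring⟩

theorem IsIntQ.neg (hf : IsIntQ f) (hfn : IsNice f) : IsIntQ (-f) := fun n => by
  obtain ⟨a, ha⟩ := hf n
  exact ⟨-a, by rw [hfn.qExpansion_neg, map_neg, ha]; push_cast; ring⟩

theorem IsIntQ.sub (hf : IsIntQ f) (hg : IsIntQ g) (hfn : IsNice f) (hgn : IsNice g) :
    IsIntQ (f - g) := fun n => by
  obtain ⟨a, ha⟩ := hf n
  obtain ⟨b, hb⟩ := hg n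
  exact ⟨a - b, by rw [hfn.qExpansion_sub hgn, map_sub, ha, hb]; push_cast; ring⟩

theorem IsIntQ.mul (hf : IsIntQ f) (hg : IsIntQ g) (hfn : IsNice f) (hgn : IsNice g) :
    IsIntQ (f * g) := fun n => by
  choose a ha using hf
  choose b hb using hg
  refine ⟨∑ p ∈ Finset.HasAntidiagonal.antidiagonal n, a p.1 * b p.2, ?_⟩
  rw [hfn.qExpansion_mul hgn, PowerSeries.coeff_mul]
  push_cast
  exact Finset.sum_congr rfl fun p _ => by rw [ha, hb]

theorem IsIntQ.pow (hf : IsIntQ f) (hfn : IsNice f) (n : ℕ) : IsIntQ (f ^ n) := by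
  induction n with
  | zero => simpa using IsIntQ.one
  | succ n ih =>
    rw [pow_succ]
    exact ih.mul hf (hfn.pow n) hfn

theorem IsIntQ.intSmul (m : ℤ) (hf : IsIntQ f) (hfn : IsNice f) : IsIntQ ((m : ℂ) • f) :=
  fun n => by
  obtain ⟨a, ha⟩ := hf n
  exact ⟨m * a, by rw [hfn.qExpansion_smul, PowerSeries.coeff_smul, ha]; push_cast; simp⟩

theorem IsIntQ.isRatQ (hf : IsIntQ f) : IsRatQ f := fun n => by
  obtain ⟨a, ha⟩ := hf n
  exact ⟨a, by rw [ha]; push_cast; rfl⟩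

/-! ### `IntSpan` -/

theorem subset_intSpan (hf : IsMF Γ k f) (hi : IsIntQ f) : f ∈ IntSpan Γ k :=
  Submodule.subset_span ⟨hf, hi⟩

theorem IntSpan.isMF [Γ.HasDetOne] (hf : f ∈ IntSpan Γ k) : IsMF Γ k f := by
  refine Submodule.span_induction (p := fun f _ => IsMF Γ k f) ?_ ?_ ?_ ?_ hf
  · rintro x ⟨hx, -⟩
    exact hx
  · exact IsMF.zero
  · intro x y _ _ hx hy
    exact hx.add hy
  · intro c x _ hx
    exact hx.smul c

theorem IntSpan.cast {k' : ℤ} (h : k = k') (hf : f ∈ IntSpan Γ k) : f ∈ IntSpan Γ k' := h ▸ hf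

theorem IntSpan.restrict (h : Γ' ≤ Γ) (hf : f ∈ IntSpan Γ k) : f ∈ IntSpan Γ' k := by
  refine Submodule.span_mono ?_ hf
  rintro x ⟨hx, hi⟩
  exact ⟨hx.restrict h, hi⟩

theorem IntSpan.restrict_G0 (N : ℕ) (hf : f ∈ IntSpan G1 k) : f ∈ IntSpan (G0 N) k :=
  IntSpan.restrict (G0_le_G1 N) hf

theorem IntSpan.mul [Γ.HasDetOne] (hΓ : (1 : ℝ) ∈ Γ.strictPeriods)
    (hf : f ∈ IntSpan Γ k) (hg : g ∈ IntSpan Γ l) : f * g ∈ IntSpan Γ (k + l) := by
  refine Submodule.span_induction (p := fun f _ => f * g ∈ IntSpan Γ (k + l)) ?_ ?_ ?_ ?_ hf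
  · rintro x ⟨hx, hxi⟩
    refine Submodule.span_induction (p := fun g _ => x * g ∈ IntSpan Γ (k + l)) ?_ ?_ ?_ ?_ hg
    · rintro y ⟨hy, hyi⟩
      exact subset_intSpan (hx.mul hy) (hxi.mul hyi (hx.isNice hΓ) (hy.isNice hΓ))
    · simp
    · intro y z _ _ hy hz
      rw [mul_add]
      exact Submodule.add_mem _ hy hz
    · intro c y _ hy
      rw [mul_smul_comm]
      exact Submodule.smul_mem _ c hy
  · simp
  · intro x y _ _ hx hy
    rw [add_mul]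
    exact Submodule.add_mem _ hx hy
  · intro c x _ hx
    rw [smul_mul_assoc]
    exact Submodule.smul_mem _ c hx

theorem IntSpan.pow [Γ.HasDetOne] (hΓ : (1 : ℝ) ∈ Γ.strictPeriods)
    (hf : f ∈ IntSpan Γ k) (n : ℕ) : f ^ n ∈ IntSpan Γ (k * n) := by
  induction n with
  | zero => simpa using subset_intSpan (Γ := Γ) IsMF.one IsIntQ.one
  | succ n ih =>
    rw [pow_succ]
    exact IntSpan.cast (by push_cast; ring) (IntSpan.mul hΓ ih hf)

/-- `IntSpan` is stable under coefficientwise conjugation by ring endomorphisms of `ℂ`. -/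
theorem IntSpan.exists_conj [Γ.HasDetOne] (hΓ : (1 : ℝ) ∈ Γ.strictPeriods) (σ : ℂ →+* ℂ)
    (hf : f ∈ IntSpan Γ k) :
    ∃ f' ∈ IntSpan Γ k, qExpansion 1 f' = (qExpansion 1 f).map σ := by
  refine Submodule.span_induction
    (p := fun f _ => ∃ f' ∈ IntSpan Γ k, qExpansion 1 f' = (qExpansion 1 f).map σ) ?_ ?_ ?_ ?_ hf
  · rintro x ⟨hx, hxi⟩
    refine ⟨x, subset_intSpan hx hxi, ?_⟩
    ext n
    obtain ⟨a, ha⟩ := hxi n
    rw [PowerSeries.coeff_map, ha, map_intCast]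
  · exact ⟨0, Submodule.zero_mem _, by simp [UpperHalfPlane.qExpansion_zero]⟩
  · rintro x y hx hy ⟨x', hx', hxq⟩ ⟨y', hy', hyq⟩
    refine ⟨x' + y', Submodule.add_mem _ hx' hy', ?_⟩
    rw [((IntSpan.isMF hx').isNice hΓ).qExpansion_add ((IntSpan.isMF hy').isNice hΓ),
      ((IntSpan.isMF hx).isNice hΓ).qExpansion_add ((IntSpan.isMF hy).isNice hΓ), hxq, hyq,
      map_add]
  · rintro c x hx ⟨x', hx', hxq⟩
    refine ⟨σ c • x', Submodule.smul_mem _ _ hx', ?_⟩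
    rw [((IntSpan.isMF hx').isNice hΓ).qExpansion_smul,
      ((IntSpan.isMF hx).isNice hΓ).qExpansion_smul, hxq]
    ext n
    simp [PowerSeries.coeff_map]

end Fermat.Agent.S22
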