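import Mathlib
import Fermat.Agent.S22.Basic
import Fermat.Agent.S22.Nice
import Fermat.Agent.S22.Forms

/-!
# Level one: every modular form is a `ℂ`-combination of forms with integral `q`-expansion
-/

set_option autoImplicit false

noncomputable section

namespace Fermat.Agent.S22

open UpperHalfPlane ModularFormClass CongruenceSubgroup Matrix.SpecialLinearGroup Function
open ModularForm EisensteinSeries
open scoped MatrixGroups ModularForm Manifold

theorem isMF_E4 : IsMF G1 4 (E₄ : ℍ → ℂ) := ⟨E₄, rfl⟩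

theorem isMF_E6 : IsMF G1 6 (E₆ : ℍ → ℂ) := ⟨E₆, rfl⟩

theorem isIntQ_E4 : IsIntQ (E₄ : ℍ → ℂ) := fun n => by
  rw [E_qExpansion_coeff _ ⟨2, rfl⟩, show bernoulli 4 = -1 / 30 by decide +kernel]
  by_cases h : n = 0
  · exact ⟨1, by simp [h]⟩
  · refine ⟨240 * (ArithmeticFunction.sigma 3 n : ℤ), ?_⟩
    simp only [h, if_false]
    push_cast
    norm_num

theorem isIntQ_E6 : IsIntQ (E₆ : ℍ → ℂ) := fun n => by
  rw [E_qExpansion_coeff _ ⟨3, rfl⟩, show bernoulli 6 = 1 / 42 by decide +kernel]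
  by_cases h : n = 0
  · exact ⟨1, by simp [h]⟩
  · refine ⟨-504 * (ArithmeticFunction.sigma 5 n : ℤ), ?_⟩
    simp only [h, if_false]
    push_cast
    norm_num

theorem isNice_E4 : IsNice (E₄ : ℍ → ℂ) := isMF_E4.isNice_G1

theorem isNice_E6 : IsNice (E₆ : ℍ → ℂ) := isMF_E6.isNice_G1

theorem Dfun_eq : Dfun = (E₄ : ℍ → ℂ) ^ 3 - (E₆ : ℍ → ℂ) ^ 2 := rfl

theorem isMF_Dfun : IsMF G1 12 Dfun := by
  rw [Dfun_eq]
  exact ((isMF_E4.pow 3).cast (by norm_num)).sub ((isMF_E6.pow 2).cast (by norm_num))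

theorem isIntQ_Dfun : IsIntQ Dfun := by
  rw [Dfun_eq]
  exact (isIntQ_E4.pow isNice_E4 3).sub (isIntQ_E6.pow isNice_E6 2) (isNice_E4.pow 3)
    (isNice_E6.pow 2)

theorem isNice_Dfun : IsNice Dfun := isMF_Dfun.isNice_G1

theorem Dfun_eq_discriminant (z : ℍ) : Dfun z = 1728 * ModularForm.discriminant z := by
  rw [discriminant_eq_E₄_cube_sub_E₆_sq z]
  simp only [Dfun]
  ring

theorem Dfun_ne_zero (z : ℍ) : Dfun z ≠ 0 := by
  rw [Dfun_eq_discriminant]
  exact mul_ne_zero (by norm_num) (discriminant_ne_zero z)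

theorem Dfun_mem_intSpan : Dfun ∈ IntSpan G1 12 := subset_intSpan isMF_Dfun isIntQ_Dfun

/-- For even `k ≥ 4` there is a level one form of weight `k` with integral `q`-expansion and
constant term `1`. -/
theorem exists_integral_const_one (k : ℤ) (hk : 4 ≤ k) (hk2 : Even k) :
    ∃ E : ℍ → ℂ, IsMF G1 k E ∧ IsIntQ E ∧ (qExpansion 1 E).coeff 0 = 1 := by
  obtain ⟨j, hj⟩ := hk2
  -- k = 2 j, j ≥ 2. Write k = 4 a + 6 b.
  have hE4 : (qExpansion 1 (E₄ : ℍ → ℂ)).coeff 0 = 1 := E_qExpansion_coeff_zero _ ⟨2, rfl⟩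
  have hE6 : (qExpansion 1 (E₆ : ℍ → ℂ)).coeff 0 = 1 := E_qExpansion_coeff_zero _ ⟨3, rfl⟩
  have key : ∀ a b : ℕ, (qExpansion 1 ((E₄ : ℍ → ℂ) ^ a * (E₆ : ℍ → ℂ) ^ b)).coeff 0 = 1 := by
    intro a b
    rw [(isNice_E4.pow a).qExpansion_mul (isNice_E6.pow b), isNice_E4.qExpansion_pow,
      isNice_E6.qExpansion_pow]
    simp only [PowerSeries.coeff_zero_eq_constantCoeff, map_mul, map_pow] at hE4 hE6 ⊢
    rw [hE4, hE6]
    simp
  rcases Int.even_or_odd j with ⟨i, hi⟩ | ⟨i, hi⟩
  · -- k = 4 i, i ≥ 1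
    have hi0 : 0 ≤ i := by omega
    lift i to ℕ using hi0
    refine ⟨(E₄ : ℍ → ℂ) ^ i * (E₆ : ℍ → ℂ) ^ 0, ?_, ?_, key i 0⟩
    · exact ((isMF_E4.pow i).mul (isMF_E6.pow 0)).cast (by push_cast; omega)
    · exact (isIntQ_E4.pow isNice_E4 i).mul (isIntQ_E6.pow isNice_E6 0) (isNice_E4.pow i)
        (isNice_E6.pow 0)
  · -- k = 4 i + 2 = 4 (i - 1) + 6, i ≥ 1
    have hi0 : 0 ≤ i - 1 := by omega
    obtain ⟨a, ha⟩ := Int.eq_ofNat_of_zero_le hi0
    refine ⟨(E₄ : ℍ → ℂ) ^ a * (E₆ : ℍ → ℂ) ^ 1, ?_, ?_, key a 1⟩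
    · exact ((isMF_E4.pow a).mul (isMF_E6.pow 1)).cast (by push_cast; omega)
    · exact (isIntQ_E4.pow isNice_E4 a).mul (isIntQ_E6.pow isNice_E6 1) (isNice_E4.pow a)
        (isNice_E6.pow 1)

/-- Every level one modular form lies in the `ℂ`-span of the level one forms with integral
`q`-expansion. -/
theorem levelOne_mem_intSpan (k : ℤ) (f : ModularForm G1 k) : ⇑f ∈ IntSpan G1 k := by
  -- strong induction on a natural number bound for `k`
  suffices H : ∀ n : ℕ, ∀ k : ℤ, k < n → ∀ f : ModularForm G1 k, ⇑f ∈ IntSpan G1 k by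
    exact H (k.toNat + 1) k (by omega) f
  intro n
  induction n with
  | zero =>
    intro k hk f
    have : (f : ℍ → ℂ) = 0 := levelOne_neg_weight_eq_zero (by exact_mod_cast hk) f
    rw [this]
    exact Submodule.zero_mem _
  | succ n ih =>
    intro k hk f
    rcases lt_or_ge k n with hlt | hge
    · exact ih k hlt f
    have hkn : k = n := by push_cast at hk; omega
    rcases lt_trichotomy k 0 with hneg | hzero | hpos
    · have : (f : ℍ → ℂ) = 0 := levelOne_neg_weight_eq_zero hneg f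
      rw [this]
      exact Submodule.zero_mem _
    · subst hzero
      obtain ⟨c, hc⟩ := levelOne_weight_zero_const f
      have h1 : (f : ℍ → ℂ) = c • (1 : ℍ → ℂ) := by
        rw [hc]; ext z; simp
      rw [h1]
      exact Submodule.smul_mem _ c (subset_intSpan IsMF.one IsIntQ.one)
    · rcases Int.even_or_odd k with hev | hodd
      · rcases lt_or_ge k 4 with h4 | h4
        · -- k = 2
          have hk2 : k = 2 := by
            obtain ⟨j, hj⟩ := hev
            omega
          subst hk2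
          have hz : f = 0 := by
            have hr := levelOne_weight_two_rank_zero
            rw [rank_zero_iff] at hr
            exact Subsingleton.elim _ _
          rw [hz]
          exact Submodule.zero_mem _
        · obtain ⟨E, hE, hEi, hE0⟩ := exists_integral_const_one k h4 hev
          obtain ⟨EF, rfl⟩ := hE
          set a₀ : ℂ := (qExpansion 1 f).coeff 0 with ha₀
          set g : ModularForm G1 k := f - a₀ • EF with hg
          have hg0 : (qExpansion 1 g).coeff 0 = 0 := by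
            have : (g : ℍ → ℂ) = (f : ℍ → ℂ) - a₀ • (EF : ℍ → ℂ) := rfl
            rw [this, (isNice_of_modularForm one_mem_strictPeriods_G1 f).qExpansion_sub
              ((isNice_of_modularForm one_mem_strictPeriods_G1 EF).smul a₀),
              (isNice_of_modularForm one_mem_strictPeriods_G1 EF).qExpansion_smul, map_sub,
              PowerSeries.coeff_smul, hE0]
            simp [ha₀]
          set h : ModularForm G1 (k - 12) := CuspForm.discriminantEquiv (toCuspForm g hg0) with hh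
          have hmul : (g : ℍ → ℂ) = ModularForm.discriminant * (h : ℍ → ℂ) := by
            rw [hh, discriminant_mul_discriminantEquiv]
            rfl
          have hih : (h : ℍ → ℂ) ∈ IntSpan G1 (k - 12) := ih (k - 12) (by omega) h
          have hD : (ModularForm.discriminant : ℍ → ℂ) = (1728 : ℂ)⁻¹ • Dfun := by
            ext z
            simp only [Pi.smul_apply, smul_eq_mul, Dfun_eq_discriminant]
            field_simp
          have hgm : (g : ℍ → ℂ) ∈ IntSpan G1 k := by
            rw [hmul, hD, smul_mul_assoc]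
            refine Submodule.smul_mem _ _ ?_
            exact IntSpan.cast (by ring) (IntSpan.mul one_mem_strictPeriods_G1 Dfun_mem_intSpan hih)
          have hf : (f : ℍ → ℂ) = (g : ℍ → ℂ) + a₀ • (EF : ℍ → ℂ) := by
            have : (g : ℍ → ℂ) = (f : ℍ → ℂ) - a₀ • (EF : ℍ → ℂ) := rfl
            rw [this]; ring
          rw [hf]
          exact Submodule.add_mem _ hgm (Submodule.smul_mem _ _ (subset_intSpan ⟨EF, rfl⟩ hEi))
      · have hz : f = 0 := levelOne_odd_weight_eq_zero hodd f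
        rw [hz]
        exact Submodule.zero_mem _

/-- Level one forms are stable under coefficientwise conjugation. -/
theorem levelOne_exists_conj (σ : ℂ →+* ℂ) {k : ℤ} {f : ℍ → ℂ} (hf : IsMF G1 k f) :
    ∃ f' : ℍ → ℂ, IsMF G1 k f' ∧ qExpansion 1 f' = (qExpansion 1 f).map σ := by
  obtain ⟨F, rfl⟩ := hf
  obtain ⟨f', hf', hq⟩ := IntSpan.exists_conj one_mem_strictPeriods_G1 σ (levelOne_mem_intSpan k F)
  exact ⟨f', IntSpan.isMF hf', hq⟩

end Fermat.Agent.S22
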