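import Mathlib
import Fermat.Agent.S22.Basic
import Fermat.Agent.S22.Nice
import Fermat.Agent.S22.Forms
import Fermat.Agent.S22.LevelOne
import Fermat.Prelude.Thm_ModularForm_heckeT_slash_eq_self_of_mem_Gamma0
import Fermat.Prelude.Thm_UpperHalfPlane_qCoeff_heckeT
import Fermat.Prelude.Thm_UpperHalfPlane_qCoeff_heckeU
import Fermat.Prelude.Thm_ModularForm_periodic_heckeT_comp_ofComplex
import Fermat.Prelude.Thm_ModularForm_periodic_heckeU_comp_ofComplex
import Fermat.Prelude.Thm_ModularForm_mdifferentiable_heckeT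
import Fermat.Prelude.Thm_ModularForm_mdifferentiable_heckeU
import Fermat.Prelude.Thm_ModularForm_isBoundedAtImInfty_heckeT
import Fermat.Prelude.Thm_ModularForm_isBoundedAtImInfty_heckeU

/-!
# PkgF: the oldform `D(N z)` is a form of level `Γ₀(N)` with integral `q`-expansion
-/

set_option autoImplicit false

noncomputable section

namespace Fermat.Agent.S22

open UpperHalfPlane ModularFormClass CongruenceSubgroup Matrix.SpecialLinearGroup
open scoped MatrixGroups ModularForm Manifold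

namespace DN

open ConjAct Pointwise in
/-- `Γ₀(N) ⊆ α⁻¹ SL₂(ℤ) α` for `α = diag(N, 1)`. -/
theorem G0_le_conj (N : ℕ) [NeZero N] :
    G0 N ≤ toConjAct (ModularForm.heckeDiagMatrix N)⁻¹ • G1 := by
  rintro _ ⟨g, hg, rfl⟩
  rw [map_inv, Subgroup.mem_inv_pointwise_smul_iff, toConjAct_smul]
  have hdvd : (N : ℤ) ∣ g 1 0 := by
    have := (Gamma0_mem).1 hg
    exact (ZMod.intCast_zmod_eq_zero_iff_dvd _ N).1 this
  obtain ⟨e, he⟩ := hdvd
  obtain ⟨g', -, hg'⟩ :=
    P2MW.S_ModularForm_heckeT_slash_eq_self_of_mem_Gamma0.ModularForm.HeckeSlashInvariance.heckeDiagMatrix_mul_of_eq'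
      (p := N) (NeZero.ne N) g e he
  refine ⟨g', ?_⟩
  have : ModularForm.heckeDiagMatrix N * (mapGL ℝ g) * (ModularForm.heckeDiagMatrix N)⁻¹ =
      mapGL ℝ g' := by
    rw [hg', mul_assoc, mul_inv_cancel, mul_one]
  exact this.symm

/-- Slashing a nice function by `diag(N, 1)` gives `heckeT - heckeU`. -/
theorem slash_diag_eq (k : ℤ) (N : ℕ) (f : ℍ → ℂ) :
    f ∣[k] ModularForm.heckeDiagMatrix N = ModularForm.heckeT k N f - ModularForm.heckeU k N f := by
  rw [ModularForm.heckeT_eq_heckeU_add, add_sub_cancel_left]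

theorem isNice_heckeT {f : ℍ → ℂ} (hf : IsNice f) (k : ℤ) (p : ℕ) :
    IsNice (ModularForm.heckeT k p f) where
  per := ModularForm.periodic_heckeT_comp_ofComplex hf.per k p
  holo := ModularForm.mdifferentiable_heckeT hf.holo k p
  bdd := ModularForm.isBoundedAtImInfty_heckeT hf.bdd k p

theorem isNice_heckeU {f : ℍ → ℂ} (hf : IsNice f) (k : ℤ) (p : ℕ) :
    IsNice (ModularForm.heckeU k p f) where
  per := ModularForm.periodic_heckeU_comp_ofComplex hf.per k p
  holo := ModularForm.mdifferentiable_heckeU hf.holo k p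
  bdd := ModularForm.isBoundedAtImInfty_heckeU hf.bdd k p

theorem isNice_slash_diag {f : ℍ → ℂ} (hf : IsNice f) (k : ℤ) (N : ℕ) :
    IsNice (f ∣[k] ModularForm.heckeDiagMatrix N) := by
  rw [slash_diag_eq]
  exact (isNice_heckeT hf k N).sub (isNice_heckeU hf k N)

theorem qExpansion_slash_diag_coeff {f : ℍ → ℂ} (hf : IsNice f) (k : ℤ) {N : ℕ} (hN : N ≠ 0)
    (n : ℕ) :
    (qExpansion 1 (f ∣[k] ModularForm.heckeDiagMatrix N)).coeff n =
      if N ∣ n then (N : ℂ) ^ (k - 1) * (qExpansion 1 f).coeff (n / N) else 0 := by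
  rw [slash_diag_eq, (isNice_heckeT hf k N).qExpansion_sub (isNice_heckeU hf k N), map_sub]
  have h1 := UpperHalfPlane.qCoeff_heckeT hf.per hf.holo hf.bdd k hN n
  have h2 := UpperHalfPlane.qCoeff_heckeU hf.per hf.holo hf.bdd k hN n
  simp only [ModularFormClass.qCoeff, ModularForm.coeffHeckeT_apply,
    ModularForm.coeffHeckeU_apply] at h1 h2
  rw [h1, h2, add_sub_cancel_left]

/-- The function `z ↦ f (N z)` written through the slash action. -/
theorem comp_diag_eq (k : ℤ) {N : ℕ} (hN : N ≠ 0) (f : ℍ → ℂ) :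
    (fun z => f (ModularForm.heckeDiagMatrix N • z)) =
      ((N : ℂ) ^ (k - 1))⁻¹ • (f ∣[k] ModularForm.heckeDiagMatrix N) := by
  funext z
  have hN' : (N : ℂ) ^ (k - 1) ≠ 0 := zpow_ne_zero _ (by exact_mod_cast hN)
  rw [Pi.smul_apply, ModularForm.slash_heckeDiagMatrix_apply k hN, smul_eq_mul,
    ← mul_assoc, inv_mul_cancel₀ hN', one_mul]

open ConjAct Pointwise in
theorem isMF_comp_diag {k : ℤ} (N : ℕ) [NeZero N] {f : ℍ → ℂ} (hf : IsMF G1 k f) :
    IsMF (G0 N) k (fun z => f (ModularForm.heckeDiagMatrix N • z)) := by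
  obtain ⟨F, rfl⟩ := hf
  have h1 : IsMF (ConjAct.toConjAct (ModularForm.heckeDiagMatrix N)⁻¹ • G1) k
      (⇑F ∣[k] ModularForm.heckeDiagMatrix N) :=
    ⟨ModularForm.translate F (ModularForm.heckeDiagMatrix N), ModularForm.coe_translate _ _⟩
  have h2 : IsMF (G0 N) k (⇑F ∣[k] ModularForm.heckeDiagMatrix N) := h1.restrict (G0_le_conj N)
  rw [comp_diag_eq k (NeZero.ne N)]
  exact h2.smul _

theorem isNice_comp_diag {k : ℤ} (N : ℕ) [NeZero N] {f : ℍ → ℂ} (hf : IsMF G1 k f) :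
    IsNice (fun z => f (ModularForm.heckeDiagMatrix N • z)) :=
  (isMF_comp_diag N hf).isNice_G0

theorem qExpansion_comp_diag_coeff {f : ℍ → ℂ} (hf : IsNice f) {N : ℕ} (hN : N ≠ 0) (n : ℕ) :
    (qExpansion 1 (fun z => f (ModularForm.heckeDiagMatrix N • z))).coeff n =
      if N ∣ n then (qExpansion 1 f).coeff (n / N) else 0 := by
  have hN' : (N : ℂ) ^ ((1 : ℤ) - 1) ≠ 0 := zpow_ne_zero _ (by exact_mod_cast hN)
  rw [comp_diag_eq 1 hN, (isNice_slash_diag hf 1 N).qExpansion_smul, PowerSeries.coeff_smul,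
    qExpansion_slash_diag_coeff hf 1 hN]
  by_cases h : N ∣ n
  · rw [if_pos h, if_pos h, smul_eq_mul, ← mul_assoc, inv_mul_cancel₀ hN', one_mul]
  · rw [if_neg h, if_neg h, smul_zero]

theorem isIntQ_comp_diag {f : ℍ → ℂ} (hf : IsNice f) (hi : IsIntQ f) {N : ℕ} (hN : N ≠ 0) :
    IsIntQ (fun z => f (ModularForm.heckeDiagMatrix N • z)) := by
  intro n
  rw [qExpansion_comp_diag_coeff hf hN]
  by_cases h : N ∣ n
  · rw [if_pos h]
    exact hi _
  · rw [if_neg h]
    exact ⟨0, by simp⟩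

end DN

theorem isMF_DNfun (N : ℕ) [NeZero N] : IsMF (G0 N) 12 (DNfun N) :=
  DN.isMF_comp_diag N isMF_Dfun

theorem isIntQ_DNfun (N : ℕ) [NeZero N] : IsIntQ (DNfun N) :=
  DN.isIntQ_comp_diag isNice_Dfun isIntQ_Dfun (NeZero.ne N)

end Fermat.Agent.S22
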