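import Mathlib
import Fermat.Agent.S22.Basic

/-!
# PkgC: modular forms of level `Γ₀(N)` are integral over level one forms

For a modular form `f` of level `Γ₀(N)` and weight `k`, the polynomial
`∏_{q ∈ SL₂(ℤ)/Γ₀(N)} (X - f∣q⁻¹)` has coefficients which are level one modular forms
(elementary symmetric functions of the translates), and `f` is a root of it.
-/

set_option autoImplicit false
set_option linter.style.haveILetI false

noncomputable section

namespace Fermat.Agent.S22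

open UpperHalfPlane ModularFormClass CongruenceSubgroup Matrix.SpecialLinearGroup
open scoped MatrixGroups ModularForm Manifold

namespace Integrality

open SlashInvariantForm

variable {𝒢 : Subgroup (GL (Fin 2) ℝ)} {F : Type*} [FunLike F ℍ ℂ] {k : ℤ}

local notation "𝒬" => 𝒮ℒ ⧸ (𝒢.subgroupOf 𝒮ℒ)

/-- The `i`-th elementary symmetric function of the `SL(2,ℤ)`-translates of `f`. -/
def esymmFun [SlashInvariantFormClass F 𝒢 k] [𝒢.IsFiniteRelIndex 𝒮ℒ] (f : F) (i : ℕ) : ℍ → ℂ :=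
  letI := Fintype.ofFinite 𝒬
  ∑ t ∈ Finset.powersetCard i (Finset.univ : Finset 𝒬), ∏ q ∈ t, quotientFunc f q

theorem esymmFun_slash [SlashInvariantFormClass F 𝒢 k] [𝒢.IsFiniteRelIndex 𝒮ℒ] (f : F) (i : ℕ)
    (h : GL (Fin 2) ℝ) (hh : h ∈ 𝒮ℒ) :
    esymmFun f i ∣[k * i] h = esymmFun f i := by
  classical
  letI := Fintype.ofFinite 𝒬
  unfold esymmFun
  rw [SlashAction.sum_slash]
  have key : ∀ t ∈ Finset.powersetCard i (Finset.univ : Finset 𝒬),
      (∏ q ∈ t, quotientFunc f q) ∣[k * i] h =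
        ∏ q ∈ t.map (MulAction.toPerm (⟨h, hh⟩ : 𝒮ℒ)⁻¹).toEmbedding, quotientFunc f q := by
    intro t ht
    have hcard : t.card = i := (Finset.mem_powersetCard.mp ht).2
    rw [← hcard, ModularForm.prod_slash, Subgroup.HasDetPlusMinusOne.abs_det hh, one_zpow,
      one_smul, Finset.prod_map]
    refine Finset.prod_congr rfl fun q _ => ?_
    rw [quotientFunc_smul f hh]
    rfl
  rw [Finset.sum_congr rfl key]
  have h2 := Finset.powersetCard_map (MulAction.toPerm (⟨h, hh⟩ : 𝒮ℒ)⁻¹ : 𝒬 ≃ 𝒬).toEmbedding i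
    (Finset.univ : Finset 𝒬)
  rw [Finset.map_univ_equiv] at h2
  conv_rhs => rw [h2]
  rw [Finset.sum_map]
  rfl

/-- The elementary symmetric functions of the translates, as a level one modular form. -/
def esymmForm [ModularFormClass F 𝒢 k] [𝒢.IsFiniteRelIndex 𝒮ℒ] (f : F) (i : ℕ) :
    ModularForm 𝒮ℒ (k * i) where
  toFun := esymmFun f i
  slash_action_eq' h hh := esymmFun_slash f i h hh
  holo' := by
    letI := Fintype.ofFinite 𝒬
    exact .sum fun t _ => .prod (Quotient.forall.mpr fun ⟨r, hr⟩ _ ↦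
      (ModularForm.translate f r⁻¹).holo')
  bdd_at_cusps' h γ := by
    rintro rfl
    letI := Fintype.ofFinite 𝒬
    simp only [esymmFun]
    rw [IsBoundedAtImInfty, Filter.BoundedAtFilter, SlashAction.sum_slash, Finset.sum_fn]
    refine .fun_sum fun t ht => ?_
    have hcard : t.card = i := (Finset.mem_powersetCard.mp ht).2
    rw [← hcard, ModularForm.prod_slash]
    apply Asymptotics.IsBigO.const_smul_left
    rw [show (1 : ℍ → ℝ) = (fun x ↦ ∏ (_i ∈ t), 1) by ext; simp, Finset.prod_fn]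
    refine .finsetProd (Quotient.forall.mpr fun ⟨r, hr⟩ _ ↦
      (ModularForm.translate f _).bdd_at_cusps' ?_ γ rfl)
    simpa using h.of_isFiniteRelIndex_conj hr

theorem coe_esymmForm [ModularFormClass F 𝒢 k] [𝒢.IsFiniteRelIndex 𝒮ℒ] (f : F) (i : ℕ) :
    ⇑(esymmForm f i) = esymmFun f i := rfl

theorem esymmFun_zero [SlashInvariantFormClass F 𝒢 k] [𝒢.IsFiniteRelIndex 𝒮ℒ] (f : F) :
    esymmFun f 0 = 1 := by
  letI := Fintype.ofFinite 𝒬
  simp [esymmFun]

/-- Vieta: a root of `∏ (X + r q)` satisfies the corresponding monic equation. -/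
theorem sum_esymm_mul_pow_eq_zero {ι : Type*} [Fintype ι] (r : ι → ℂ) (x : ℂ) (q0 : ι)
    (h : x + r q0 = 0) :
    ∑ i ∈ Finset.range (Fintype.card ι + 1),
      (∑ t ∈ Finset.powersetCard i (Finset.univ : Finset ι), ∏ q ∈ t, r q) *
        x ^ (Fintype.card ι - i) = 0 := by
  have h1 := Multiset.prod_X_add_C_eq_sum_esymm ((Finset.univ : Finset ι).val.map r)
  have h2 := congrArg (Polynomial.eval x) h1
  rw [Multiset.map_map] at h2
  have h3 : Polynomial.eval x
      (Multiset.map ((fun r => Polynomial.X + Polynomial.C r) ∘ r)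
        (Finset.univ : Finset ι).val).prod = 0 := by
    have : (Multiset.map ((fun r => Polynomial.X + Polynomial.C r) ∘ r)
        (Finset.univ : Finset ι).val).prod =
        ∏ q : ι, (Polynomial.X + Polynomial.C (r q)) := rfl
    rw [this, Polynomial.eval_prod]
    exact Finset.prod_eq_zero (Finset.mem_univ q0) (by simpa using h)
  rw [h3, Polynomial.eval_finsetSum] at h2
  simp only [Multiset.card_map, Finset.card_val, Finset.card_univ, Polynomial.eval_mul,
    Polynomial.eval_C, Polynomial.eval_pow, Polynomial.eval_X, Finset.esymm_map_val] at h2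
  exact h2.symm

theorem quotientFunc_one_apply [SlashInvariantFormClass F 𝒢 k] (f : F) (z : ℍ) :
    quotientFunc f (⟦(1 : 𝒮ℒ)⟧ : 𝒬) z = f z := by
  simp [quotientFunc_mk]

theorem card_quotient_Gamma0 (N : ℕ) :
    Nat.card (𝒮ℒ ⧸ ((G0 N).subgroupOf 𝒮ℒ)) = (Gamma0 N).index := by
  have h1 : Nat.card (𝒮ℒ ⧸ ((G0 N).subgroupOf 𝒮ℒ)) = (G0 N).relIndex 𝒮ℒ := rfl
  rw [h1]
  have h2 : 𝒮ℒ = (mapGL ℝ : SL(2, ℤ) →* GL (Fin 2) ℝ).range := rfl
  rw [h2, ← Subgroup.index_comap, Subgroup.comap_map_eq_self_of_injective mapGL_injective]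

/-- The monic equation satisfied by `f` (general form). -/
theorem sum_esymmFun_neg_mul_pow [𝒢.IsFiniteRelIndex 𝒮ℒ]
    (f : ModularForm 𝒢 k) (z : ℍ) :
    ∑ i ∈ Finset.range (Nat.card 𝒬 + 1),
      esymmFun (-f) i z * f z ^ (Nat.card 𝒬 - i) = 0 := by
  letI := Fintype.ofFinite 𝒬
  have h := sum_esymm_mul_pow_eq_zero (fun q : 𝒬 => quotientFunc (-f) q z) (f z)
    (⟦(1 : 𝒮ℒ)⟧ : 𝒬) (by rw [quotientFunc_one_apply]; simp)
  rw [← Nat.card_eq_fintype_card] at h
  convert h using 3 with i _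
  simp [esymmFun, Finset.sum_apply, Finset.prod_apply]

theorem isZeroAtImInfty_quotientFunc [𝒢.IsArithmetic] (f : CuspForm 𝒢 k) (q : 𝒬) :
    IsZeroAtImInfty (quotientFunc f q) := by
  induction q using Quotient.inductionOn with
  | h r =>
    obtain ⟨r, hr⟩ := r
    have hr' : r⁻¹ ∈ 𝒮ℒ := inv_mem hr
    obtain ⟨g, hg⟩ := hr'
    have : quotientFunc f (⟦(⟨r, hr⟩ : 𝒮ℒ)⟧ : 𝒬) = (f : ℍ → ℂ) ∣[k] g := by
      rw [quotientFunc_mk, ModularForm.SL_slash]
      congr 1
      exact hg.symm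
    rw [this]
    exact CuspFormClass.zero_at_infty_slash f g

theorem isZeroAtImInfty_esymmFun [𝒢.IsArithmetic] (f : CuspForm 𝒢 k) (i : ℕ) (hi : 1 ≤ i) :
    IsZeroAtImInfty (esymmFun f i) := by
  letI := Fintype.ofFinite 𝒬
  rw [IsZeroAtImInfty, Filter.ZeroAtFilter]
  have h0 : (0 : ℂ) = ∑ t ∈ Finset.powersetCard i (Finset.univ : Finset 𝒬), ∏ _q ∈ t, (0 : ℂ) := by
    symm
    refine Finset.sum_eq_zero fun t ht => ?_
    have hcard : t.card = i := (Finset.mem_powersetCard.mp ht).2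
    rw [Finset.prod_const, hcard]
    exact zero_pow (by omega)
  have h1 : esymmFun f i = fun z =>
      ∑ t ∈ Finset.powersetCard i (Finset.univ : Finset 𝒬), ∏ q ∈ t, quotientFunc f q z := by
    ext z
    simp [esymmFun, Finset.sum_apply, Finset.prod_apply]
  rw [h1, h0]
  refine tendsto_finsetSum _ fun t _ => tendsto_finsetProd _ fun q _ => ?_
  exact isZeroAtImInfty_quotientFunc f q

end Integrality

open Integrality in
theorem exists_integrality (N : ℕ) [NeZero N] (k : ℤ) (f : ModularForm (G0 N) k) :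
    ∃ c : ℕ → ℍ → ℂ, (∀ i : ℕ, IsMF G1 (k * i) (c i)) ∧ c 0 = 1 ∧
      ∀ z, ∑ i ∈ Finset.range ((Gamma0 N).index + 1),
        c i z * f z ^ ((Gamma0 N).index - i) = 0 := by
  refine ⟨fun i => esymmFun (-f) i, fun i => ⟨esymmForm (-f) i, rfl⟩, esymmFun_zero _, fun z => ?_⟩
  have h := sum_esymmFun_neg_mul_pow f z
  rwa [card_quotient_Gamma0] at h

open Integrality in
theorem exists_integrality_cusp (N : ℕ) [NeZero N] (k : ℤ) (f : CuspForm (G0 N) k) :
    ∃ c : ℕ → ℍ → ℂ, (∀ i : ℕ, IsMF G1 (k * i) (c i)) ∧ c 0 = 1 ∧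
      (∀ i, 1 ≤ i → IsZeroAtImInfty (c i)) ∧
      ∀ z, ∑ i ∈ Finset.range ((Gamma0 N).index + 1),
        c i z * f z ^ ((Gamma0 N).index - i) = 0 := by
  let g : ModularForm (G0 N) k :=
    { toSlashInvariantForm := f.toSlashInvariantForm
      holo' := f.holo'
      bdd_at_cusps' := fun hc γ hγ => (f.zero_at_cusps' hc γ hγ).boundedAtFilter }
  refine ⟨fun i => esymmFun (-f) i, fun i => ⟨esymmForm (-g) i, rfl⟩, esymmFun_zero _,
    fun i hi => isZeroAtImInfty_esymmFun (-f) i hi, fun z => ?_⟩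
  have h := sum_esymmFun_neg_mul_pow g z
  rwa [card_quotient_Gamma0] at h

end Fermat.Agent.S22
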