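import Mathlib
import Fermat.Agent.S22.Basic
import Fermat.Agent.S22.Nice

/-!
# PkgB: lifting a quotient `U / V` of modular forms to a modular form

If `U` (weight `w + k`) and `V ≠ 0` (weight `w`) are modular forms of level `Γ₀(N)` and `U / V`
satisfies a monic polynomial relation whose coefficients are level one modular forms, then
`U / V` extends to a modular form of weight `k` and level `Γ₀(N)`.
-/

set_option autoImplicit false

noncomputable section

namespace Fermat.Agent.S22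

open UpperHalfPlane ModularFormClass CongruenceSubgroup Matrix.SpecialLinearGroup
open scoped MatrixGroups ModularForm Manifold

namespace Lift

open Filter Topology

/-! ### Root bounds -/

/-- Split off the leading term of a monic relation. -/
theorem pow_eq_neg_sum (d : ℕ) (c : ℕ → ℂ) (hc0 : c 0 = 1) (x : ℂ)
    (h : ∑ i ∈ Finset.range (d + 1), c i * x ^ (d - i) = 0) :
    x ^ d = - ∑ i ∈ Finset.range d, c (i + 1) * x ^ (d - (i + 1)) := by
  rw [Finset.sum_range_succ'] at h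
  simp only [hc0, one_mul, Nat.sub_zero] at h
  exact eq_neg_of_add_eq_zero_right h

theorem norm_le_sum_of_one_lt (d : ℕ) (c : ℕ → ℂ) (hc0 : c 0 = 1) (x : ℂ)
    (h : ∑ i ∈ Finset.range (d + 1), c i * x ^ (d - i) = 0) (hx : 1 < ‖x‖) :
    ‖x‖ ≤ ∑ i ∈ Finset.range d, ‖c (i + 1)‖ := by
  have hpow := pow_eq_neg_sum d c hc0 x h
  rcases Nat.eq_zero_or_pos d with rfl | hd
  · simp at hpow
  obtain ⟨e, rfl⟩ : ∃ e, d = e + 1 := ⟨d - 1, by omega⟩
  have hxpos : 0 < ‖x‖ := lt_trans zero_lt_one hx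
  have h1 : ‖x‖ ^ (e + 1) ≤ (∑ i ∈ Finset.range (e + 1), ‖c (i + 1)‖) * ‖x‖ ^ e := by
    calc ‖x‖ ^ (e + 1) = ‖x ^ (e + 1)‖ := (norm_pow _ _).symm
      _ = ‖∑ i ∈ Finset.range (e + 1), c (i + 1) * x ^ (e + 1 - (i + 1))‖ := by
          rw [hpow, norm_neg]
      _ ≤ ∑ i ∈ Finset.range (e + 1), ‖c (i + 1) * x ^ (e + 1 - (i + 1))‖ := norm_sum_le _ _
      _ ≤ ∑ i ∈ Finset.range (e + 1), ‖c (i + 1)‖ * ‖x‖ ^ e := by
          refine Finset.sum_le_sum fun i _ => ?_
          rw [norm_mul, norm_pow]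
          refine mul_le_mul_of_nonneg_left ?_ (norm_nonneg _)
          exact pow_le_pow_right₀ hx.le (by omega)
      _ = (∑ i ∈ Finset.range (e + 1), ‖c (i + 1)‖) * ‖x‖ ^ e := by
          rw [Finset.sum_mul]
  have h2 : ‖x‖ * ‖x‖ ^ e ≤ (∑ i ∈ Finset.range (e + 1), ‖c (i + 1)‖) * ‖x‖ ^ e := by
    rwa [← pow_succ']
  exact le_of_mul_le_mul_right h2 (pow_pos hxpos e)

/-- Crude bound for roots of a monic polynomial. -/
theorem norm_le_of_monic_rel (d : ℕ) (c : ℕ → ℂ) (hc0 : c 0 = 1) (x : ℂ)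
    (h : ∑ i ∈ Finset.range (d + 1), c i * x ^ (d - i) = 0) :
    ‖x‖ ≤ 1 + ∑ i ∈ Finset.range d, ‖c (i + 1)‖ := by
  have hnn : 0 ≤ ∑ i ∈ Finset.range d, ‖c (i + 1)‖ :=
    Finset.sum_nonneg fun _ _ => norm_nonneg _
  by_cases hx : 1 < ‖x‖
  · linarith [norm_le_sum_of_one_lt d c hc0 x h hx]
  · push Not at hx
    linarith

/-- Roots of a monic polynomial with small lower coefficients are small. -/
theorem norm_pow_le_of_monic_rel (d : ℕ) (c : ℕ → ℂ) (hc0 : c 0 = 1) (x : ℂ)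
    (h : ∑ i ∈ Finset.range (d + 1), c i * x ^ (d - i) = 0)
    (hS : ∑ i ∈ Finset.range d, ‖c (i + 1)‖ < 1) :
    ‖x‖ ^ d ≤ ∑ i ∈ Finset.range d, ‖c (i + 1)‖ := by
  have hx : ‖x‖ ≤ 1 := by
    by_contra hcon
    push Not at hcon
    linarith [norm_le_sum_of_one_lt d c hc0 x h hcon]
  have hpow := pow_eq_neg_sum d c hc0 x h
  calc ‖x‖ ^ d = ‖x ^ d‖ := (norm_pow _ _).symm
    _ = ‖∑ i ∈ Finset.range d, c (i + 1) * x ^ (d - (i + 1))‖ := by rw [hpow, norm_neg]
    _ ≤ ∑ i ∈ Finset.range d, ‖c (i + 1) * x ^ (d - (i + 1))‖ := norm_sum_le _ _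
    _ ≤ ∑ i ∈ Finset.range d, ‖c (i + 1)‖ := by
        refine Finset.sum_le_sum fun i _ => ?_
        rw [norm_mul, norm_pow]
        exact mul_le_of_le_one_right (norm_nonneg _) (pow_le_one₀ (norm_nonneg _) hx)

/-! ### Dividing the relation by `V ^ d` -/

theorem rel_div (d : ℕ) (c : ℕ → ℂ) (u v : ℂ) (hv : v ≠ 0)
    (h : ∑ i ∈ Finset.range (d + 1), c i * u ^ (d - i) * v ^ i = 0) :
    ∑ i ∈ Finset.range (d + 1), c i * (u / v) ^ (d - i) = 0 := by
  have hvd : v ^ d ≠ 0 := pow_ne_zero _ hv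
  have key : (∑ i ∈ Finset.range (d + 1), c i * (u / v) ^ (d - i)) * v ^ d = 0 := by
    rw [Finset.sum_mul, ← h]
    refine Finset.sum_congr rfl fun i hi => ?_
    have hid : i ≤ d := Nat.lt_succ_iff.mp (Finset.mem_range.mp hi)
    have hvdi : v ^ (d - i) ≠ 0 := pow_ne_zero _ hv
    rw [div_pow]
    have : v ^ d = v ^ (d - i) * v ^ i := by rw [← pow_add, Nat.sub_add_cancel hid]
    rw [this]
    field_simp
  exact (mul_eq_zero.mp key).resolve_right hvd

theorem rel_mul (d : ℕ) (c : ℕ → ℂ) (g v : ℂ) :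
    (∑ i ∈ Finset.range (d + 1), c i * g ^ (d - i)) * v ^ d =
      ∑ i ∈ Finset.range (d + 1), c i * (g * v) ^ (d - i) * v ^ i := by
  rw [Finset.sum_mul]
  refine Finset.sum_congr rfl fun i hi => ?_
  have hid : i ≤ d := Nat.lt_succ_iff.mp (Finset.mem_range.mp hi)
  have : v ^ d = v ^ (d - i) * v ^ i := by rw [← pow_add, Nat.sub_add_cancel hid]
  rw [this, mul_pow]
  ring

theorem eq_zero_of_rel_of_eq_zero (d : ℕ) (c : ℕ → ℂ) (hc0 : c 0 = 1) (u v : ℂ) (hv : v = 0)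
    (h : ∑ i ∈ Finset.range (d + 1), c i * u ^ (d - i) * v ^ i = 0) : u = 0 := by
  rw [Finset.sum_range_succ'] at h
  have hz : ∑ i ∈ Finset.range d, c (i + 1) * u ^ (d - (i + 1)) * v ^ (i + 1) = 0 :=
    Finset.sum_eq_zero fun i _ => by rw [hv]; simp
  rw [hz, hc0] at h
  simp only [one_mul, Nat.sub_zero, pow_zero, mul_one, zero_add] at h
  rcases Nat.eq_zero_or_pos d with rfl | hd
  · simp at h
  · exact (pow_eq_zero_iff hd.ne').mp h

/-! ### Holomorphic extension of `U / V` -/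

/-- Holomorphic extension: if `u / v` is a root of a monic polynomial with continuous coefficients
on the upper half plane, it extends to a holomorphic function `g` with `g * v = u`. -/
theorem exists_differentiableOn_quotient (d : ℕ) (u v : ℂ → ℂ) (c : ℕ → ℂ → ℂ)
    (hu : DifferentiableOn ℂ u {z | 0 < z.im}) (hv : DifferentiableOn ℂ v {z | 0 < z.im})
    (hv0 : ∃ z, 0 < z.im ∧ v z ≠ 0)
    (hc : ∀ i, ContinuousOn (c i) {z | 0 < z.im}) (hc0 : ∀ z, c 0 z = 1)
    (hrel : ∀ z, 0 < z.im →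
      ∑ i ∈ Finset.range (d + 1), c i z * u z ^ (d - i) * v z ^ i = 0) :
    ∃ g : ℂ → ℂ, DifferentiableOn ℂ g {z | 0 < z.im} ∧ ∀ z, 0 < z.im → g z * v z = u z := by
  classical
  have hopen : IsOpen {z : ℂ | 0 < z.im} := isOpen_upperHalfPlaneSet
  set g0 : ℂ → ℂ := fun z => u z / v z with hg0
  set g : ℂ → ℂ := fun z => if v z = 0 then limUnder (𝓝[≠] z) g0 else g0 z with hg
  have hpre : IsPreconnected {z : ℂ | 0 < z.im} :=
    (Complex.isConnected_of_upperHalfPlane subset_rfl (by grind)).isPreconnected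
  have hvan : AnalyticOnNhd ℂ v {z | 0 < z.im} := hv.analyticOnNhd hopen
  -- isolated zeros
  have hiso : ∀ z0, 0 < z0.im → ∀ᶠ w in 𝓝[≠] z0, v w ≠ 0 := by
    intro z0 hz0
    rcases (hvan z0 hz0).eventually_eq_zero_or_eventually_ne_zero with h | h
    · exfalso
      obtain ⟨z1, hz1, hvz1⟩ := hv0
      exact hvz1 (hvan.eqOn_zero_of_preconnected_of_eventuallyEq_zero hpre hz0 h hz1)
    · exact h
  have hkey : ∀ z0, 0 < z0.im → DifferentiableAt ℂ g z0 ∧ g z0 * v z0 = u z0 := by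
    intro z0 hz0
    have hnhds : {z : ℂ | 0 < z.im} ∈ 𝓝 z0 := hopen.mem_nhds hz0
    by_cases hvz : v z0 = 0
    · -- removable singularity
      have huz : u z0 = 0 := eq_zero_of_rel_of_eq_zero d (fun i => c i z0) (hc0 z0) _ _ hvz
        (hrel z0 hz0)
      -- bound function
      set C : ℂ → ℝ := fun w => 1 + ∑ i ∈ Finset.range d, ‖c (i + 1) w‖ with hC
      have hCcont : ContinuousAt C z0 := by
        refine continuousAt_const.add (tendsto_finsetSum _ fun i _ => ?_)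
        exact ((hc (i + 1)).continuousAt hnhds).norm
      have hCev : ∀ᶠ w in 𝓝 z0, C w < C z0 + 1 :=
        hCcont.eventually (gt_mem_nhds (lt_add_one _))
      have hisoev : ∀ᶠ w in 𝓝 z0, w ≠ z0 → v w ≠ 0 := eventually_nhdsWithin_iff.mp (hiso z0 hz0)
      set s : Set ℂ := {w | 0 < w.im ∧ (w ≠ z0 → v w ≠ 0) ∧ C w < C z0 + 1} with hs
      have hsn : s ∈ 𝓝 z0 := by
        filter_upwards [hnhds, hisoev, hCev] with w h1 h2 h3 using ⟨h1, h2, h3⟩
      have hd : DifferentiableOn ℂ g0 (s \ {z0}) := by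
        rintro w ⟨⟨hw1, hw2, -⟩, hwne⟩
        have hwne' : w ≠ z0 := by simpa using hwne
        exact ((hu w hw1).div (hv w hw1) (hw2 hwne')).mono (fun x hx => hx.1.1)
      have hb : BddAbove (norm ∘ g0 '' (s \ {z0})) := by
        refine ⟨C z0 + 1, ?_⟩
        rintro _ ⟨w, ⟨⟨hw1, hw2, hw3⟩, hwne⟩, rfl⟩
        have hwne' : w ≠ z0 := by simpa using hwne
        have hr := rel_div d (fun i => c i w) (u w) (v w) (hw2 hwne') (hrel w hw1)
        have := norm_le_of_monic_rel d (fun i => c i w) (hc0 w) _ hr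
        simp only [Function.comp_apply, hg0]
        exact this.trans hw3.le
      have hdiff := Complex.differentiableOn_update_limUnder_of_bddAbove hsn hd hb
      have heq : g =ᶠ[𝓝 z0] Function.update g0 z0 (limUnder (𝓝[≠] z0) g0) := by
        filter_upwards [hsn] with w hw
        by_cases hwz : w = z0
        · subst hwz
          simp [hg, hvz]
        · rw [Function.update_of_ne hwz]
          simp [hg, hw.2.1 hwz]
      refine ⟨((hdiff.differentiableAt hsn).congr_of_eventuallyEq heq), ?_⟩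
      rw [hvz, huz, mul_zero]
    · have hvcont : ContinuousAt v z0 := (hv.differentiableAt hnhds).continuousAt
      have hev : ∀ᶠ w in 𝓝 z0, v w ≠ 0 := hvcont.eventually_ne hvz
      have heq : g =ᶠ[𝓝 z0] g0 := by
        filter_upwards [hev] with w hw
        simp [hg, hw]
      have hd0 : DifferentiableAt ℂ g0 z0 :=
        (hu.differentiableAt hnhds).div (hv.differentiableAt hnhds) hvz
      refine ⟨hd0.congr_of_eventuallyEq heq, ?_⟩
      simp only [hg, hvz, if_false, hg0]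
      field_simp
  exact ⟨g, fun z hz => (hkey z hz).1.differentiableWithinAt, fun z hz => (hkey z hz).2⟩

/-- Version on `ℍ`. -/
theorem exists_mdiff_quotient (d : ℕ) (U V : ℍ → ℂ) (c : ℕ → ℍ → ℂ)
    (hU : MDiff U) (hV : MDiff V) (hV0 : V ≠ 0) (hc : ∀ i, MDiff (c i)) (hc0 : c 0 = 1)
    (hrel : ∀ z, ∑ i ∈ Finset.range (d + 1), c i z * U z ^ (d - i) * V z ^ i = 0) :
    ∃ G : ℍ → ℂ, MDiff G ∧ ∀ z, G z * V z = U z := by
  have hV0' : ∃ z : ℂ, 0 < z.im ∧ (V ∘ ofComplex) z ≠ 0 := by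
    by_contra hcon
    push Not at hcon
    apply hV0
    funext τ
    have := hcon τ τ.im_pos
    simpa using this
  obtain ⟨g, hg, hgv⟩ := exists_differentiableOn_quotient d (U ∘ ofComplex) (V ∘ ofComplex)
    (fun i => c i ∘ ofComplex) (UpperHalfPlane.mdifferentiable_iff.mp hU) (UpperHalfPlane.mdifferentiable_iff.mp hV) hV0'
    (fun i => (UpperHalfPlane.mdifferentiable_iff.mp (hc i)).continuousOn)
    (fun z => by simp [hc0])
    (fun z _ => by simpa using hrel (ofComplex z))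
  refine ⟨fun τ => g τ, ?_, fun τ => ?_⟩
  · rw [UpperHalfPlane.mdifferentiable_iff]
    refine hg.congr fun z hz => ?_
    simp [Function.comp_apply, ofComplex_apply_of_im_pos hz]
  · have := hgv τ τ.im_pos
    simpa using this

/-- The relation for the quotient itself. -/
theorem rel_quotient (d : ℕ) (U V G : ℍ → ℂ) (c : ℕ → ℍ → ℂ)
    (hV : MDiff V) (hV0 : V ≠ 0) (hG : MDiff G) (hc : ∀ i, MDiff (c i))
    (hGV : ∀ z, G z * V z = U z)
    (hrel : ∀ z, ∑ i ∈ Finset.range (d + 1), c i z * U z ^ (d - i) * V z ^ i = 0) (z : ℍ) :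
    ∑ i ∈ Finset.range (d + 1), c i z * G z ^ (d - i) = 0 := by
  set R : ℍ → ℂ := fun z => ∑ i ∈ Finset.range (d + 1), c i z * G z ^ (d - i) with hR
  have hRd : MDiff R := by
    have : R = ∑ i ∈ Finset.range (d + 1), (c i * G ^ (d - i)) := by
      funext z
      simp [hR, Finset.sum_apply]
    rw [this]
    exact MDifferentiable.sum fun i _ => (hc i).mul (hG.pow _)
  have hprod : R * V ^ d = 0 := by
    funext z
    simp only [Pi.mul_apply, Pi.pow_apply, Pi.zero_apply, hR]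
    rw [rel_mul, ← hrel z]
    refine Finset.sum_congr rfl fun i _ => ?_
    rw [hGV z]
  rcases (UpperHalfPlane.mul_eq_zero_iff hRd (hV.pow d)).mp hprod with h | h
  · exact congrFun h z
  · exfalso
    apply hV0
    funext z
    have := congrFun h z
    simp only [Pi.pow_apply, Pi.zero_apply] at this
    exact pow_eq_zero_iff (n := d) (by
      rintro rfl
      simp at this) |>.mp this

/-- Slash of the quotient again satisfies the relation. -/
theorem rel_slash (k : ℤ) (d : ℕ) (G : ℍ → ℂ) (c : ℕ → ℍ → ℂ)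
    (hc : ∀ i : ℕ, ∀ γ : SL(2, ℤ), (c i) ∣[k * i] γ = c i)
    (hrel : ∀ z, ∑ i ∈ Finset.range (d + 1), c i z * G z ^ (d - i) = 0)
    (γ : SL(2, ℤ)) (z : ℍ) :
    ∑ i ∈ Finset.range (d + 1), c i z * (G ∣[k] γ) z ^ (d - i) = 0 := by
  have hδ : denom γ z ≠ 0 := denom_ne_zero γ z
  have h1 := hrel (γ • z)
  have hci : ∀ i : ℕ, c i z = c i (γ • z) * denom γ z ^ (-(k * i)) := by
    intro i
    have := congrFun (hc i γ) z
    rw [ModularForm.SL_slash_apply] at this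
    exact this.symm
  have key : ∑ i ∈ Finset.range (d + 1), c i z * (G ∣[k] γ) z ^ (d - i) =
      (∑ i ∈ Finset.range (d + 1), c i (γ • z) * G (γ • z) ^ (d - i)) *
        denom γ z ^ (-(k * d)) := by
    rw [Finset.sum_mul]
    refine Finset.sum_congr rfl fun i hi => ?_
    have hid : i ≤ d := Nat.lt_succ_iff.mp (Finset.mem_range.mp hi)
    rw [hci i, ModularForm.SL_slash_apply, mul_pow, ← zpow_natCast (denom γ z ^ (-k)),
      ← zpow_mul]
    have hexp : denom γ z ^ (-(k * (d : ℤ))) =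
        denom γ z ^ (-(k * (i : ℤ))) * denom γ z ^ (-k * ((d - i : ℕ) : ℤ)) := by
      rw [← zpow_add₀ hδ]
      congr 1
      push_cast [Nat.cast_sub hid]
      ring
    rw [hexp]
    ring
  rw [key, h1, zero_mul]

/-- Slash invariance of the quotient. -/
theorem slash_eq_of_mul_eq (N : ℕ) (k w : ℤ) (U V G : ℍ → ℂ)
    (hU : IsMF (G0 N) (w + k) U) (hV : IsMF (G0 N) w V) (hV0 : V ≠ 0) (hG : MDiff G)
    (hGV : ∀ z, G z * V z = U z) (γ : GL (Fin 2) ℝ) (hγ : γ ∈ G0 N) : G ∣[k] γ = G := by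
  obtain ⟨FU, rfl⟩ := hU
  obtain ⟨FV, rfl⟩ := hV
  obtain ⟨γ', hγ', rfl⟩ := hγ
  have hUs : (⇑FU) ∣[w + k] γ' = ⇑FU := FU.slash_action_eq' _ ⟨γ', hγ', rfl⟩
  have hVs : (⇑FV) ∣[w] γ' = ⇑FV := FV.slash_action_eq' _ ⟨γ', hγ', rfl⟩
  have hprod : G * ⇑FV = ⇑FU := funext hGV
  have h1 : (G * ⇑FV) ∣[k + w] γ' = (G ∣[k] γ') * ((⇑FV) ∣[w] γ') :=
    ModularForm.mul_slash_SL2 k w γ' G FV
  rw [hprod, hVs, add_comm k w, hUs] at h1
  have h2 : (G ∣[k] γ' - G) * ⇑FV = 0 := by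
    rw [sub_mul, ← h1, hprod, sub_self]
  have hGs : MDiff (G ∣[k] γ') := hG.slash k _
  rcases (UpperHalfPlane.mul_eq_zero_iff (hGs.sub hG) FV.holo').mp h2 with h | h
  · exact sub_eq_zero.mp h
  · exact absurd h hV0

theorem isBigO_sum_norm (d : ℕ) (c : ℕ → ℍ → ℂ)
    (hc : ∀ i, IsBoundedAtImInfty (c i)) :
    (fun z : ℍ => 1 + ∑ i ∈ Finset.range d, ‖c (i + 1) z‖) =O[atImInfty] (1 : ℍ → ℝ) := by
  refine (Asymptotics.isBigO_refl _ _).add (Asymptotics.IsBigO.fun_sum fun i _ => ?_)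
  have := hc (i + 1)
  rw [IsBoundedAtImInfty, BoundedAtFilter] at this
  rw [Asymptotics.isBigO_iff] at this ⊢
  obtain ⟨C, hC⟩ := this
  exact ⟨C, by simpa using hC⟩

/-- Boundedness at `i∞` from the monic relation. -/
theorem isBoundedAtImInfty_of_rel (d : ℕ) (H : ℍ → ℂ) (c : ℕ → ℍ → ℂ) (hc0 : c 0 = 1)
    (hc : ∀ i, IsBoundedAtImInfty (c i))
    (hrel : ∀ z, ∑ i ∈ Finset.range (d + 1), c i z * H z ^ (d - i) = 0) :
    IsBoundedAtImInfty H := by
  have hb := isBigO_sum_norm d c hc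
  have hle : H =O[atImInfty] (fun z : ℍ => 1 + ∑ i ∈ Finset.range d, ‖c (i + 1) z‖) := by
    refine Asymptotics.IsBigO.of_bound 1 (Filter.Eventually.of_forall fun z => ?_)
    have h1 := norm_le_of_monic_rel d (fun i => c i z) (by simp [hc0]) (H z) (hrel z)
    have hnn : 0 ≤ 1 + ∑ i ∈ Finset.range d, ‖c (i + 1) z‖ :=
      add_nonneg zero_le_one (Finset.sum_nonneg fun _ _ => norm_nonneg _)
    rw [one_mul, Real.norm_of_nonneg hnn]
    exact h1
  have := hle.trans hb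
  rw [IsBoundedAtImInfty, BoundedAtFilter]
  rw [Asymptotics.isBigO_iff] at this ⊢
  obtain ⟨C, hC⟩ := this
  exact ⟨C, by simpa using hC⟩

/-- Vanishing at `i∞` from the monic relation with coefficients vanishing at `i∞`. -/
theorem isZeroAtImInfty_of_rel (d : ℕ) (H : ℍ → ℂ) (c : ℕ → ℍ → ℂ) (hc0 : c 0 = 1)
    (hcz : ∀ i, 1 ≤ i → IsZeroAtImInfty (c i))
    (hrel : ∀ z, ∑ i ∈ Finset.range (d + 1), c i z * H z ^ (d - i) = 0) :
    IsZeroAtImInfty H := by
  have hS : Tendsto (fun z : ℍ => ∑ i ∈ Finset.range d, ‖c (i + 1) z‖) atImInfty (𝓝 0) := by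
    have : Tendsto (fun z : ℍ => ∑ i ∈ Finset.range d, ‖c (i + 1) z‖) atImInfty
        (𝓝 (∑ _i ∈ Finset.range d, (0 : ℝ))) := by
      refine tendsto_finsetSum _ fun i _ => ?_
      have := hcz (i + 1) (by omega)
      rw [IsZeroAtImInfty, ZeroAtFilter] at this
      simpa using this.norm
    simpa using this
  rw [IsZeroAtImInfty, ZeroAtFilter, Metric.tendsto_nhds]
  intro ε hε
  have hmin : (0 : ℝ) < min 1 (ε ^ d) := lt_min one_pos (pow_pos hε d)
  filter_upwards [(tendsto_order.1 hS).2 _ hmin] with z hz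
  have hz1 : ∑ i ∈ Finset.range d, ‖c (i + 1) z‖ < 1 := lt_of_lt_of_le hz (min_le_left _ _)
  have hz2 : ∑ i ∈ Finset.range d, ‖c (i + 1) z‖ < ε ^ d := lt_of_lt_of_le hz (min_le_right _ _)
  have h1 := norm_pow_le_of_monic_rel d (fun i => c i z) (by simp [hc0]) (H z) (hrel z) hz1
  have h2 : ‖H z‖ ^ d < ε ^ d := lt_of_le_of_lt h1 hz2
  rw [dist_zero_right]
  exact lt_of_pow_lt_pow_left₀ d hε.le h2

end Lift

open Lift in
/-- **PkgB**: the quotient `U / V` of two modular forms of level `Γ₀(N)` which satisfies a monic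
polynomial relation with level one coefficients is a modular form. -/
theorem lift_modularForm (N : ℕ) [NeZero N] (k w : ℤ) (d : ℕ) (U V : ℍ → ℂ)
    (hU : IsMF (G0 N) (w + k) U) (hV : IsMF (G0 N) w V) (hV0 : V ≠ 0)
    (c : ℕ → ℍ → ℂ) (hc : ∀ i : ℕ, IsMF G1 (k * i) (c i)) (hc0 : c 0 = 1)
    (hrel : ∀ z, ∑ i ∈ Finset.range (d + 1), c i z * U z ^ (d - i) * V z ^ i = 0) :
    ∃ G : ModularForm (G0 N) k, ∀ z, G z * V z = U z := by
  have hUd : MDiff U := by obtain ⟨F, rfl⟩ := hU; exact F.holo'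
  have hVd : MDiff V := by obtain ⟨F, rfl⟩ := hV; exact F.holo'
  have hcd : ∀ i, MDiff (c i) := fun i => by obtain ⟨F, hF⟩ := hc i; rw [← hF]; exact F.holo'
  have hcb : ∀ i, IsBoundedAtImInfty (c i) := fun i => (hc i).isNice_G1.bdd
  have hcs : ∀ i : ℕ, ∀ γ : SL(2, ℤ), (c i) ∣[k * i] γ = c i := fun i γ => by
    obtain ⟨F, hF⟩ := hc i
    rw [← hF]
    exact F.slash_action_eq' _ ⟨γ, rfl⟩
  obtain ⟨G, hG, hGV⟩ := exists_mdiff_quotient d U V c hUd hVd hV0 hcd hc0 hrel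
  have hrelG := rel_quotient d U V G c hVd hV0 hG hcd hGV hrel
  refine ⟨{ toFun := G
            slash_action_eq' := fun γ hγ => slash_eq_of_mul_eq N k w U V G hU hV hV0 hG hGV γ hγ
            holo' := hG
            bdd_at_cusps' := fun {c'} hc' => ?_ }, hGV⟩
  have hc'' : IsCusp c' 𝒮ℒ := (Subgroup.IsArithmetic.isCusp_iff_isCusp_SL2Z (G0 N)).mp hc'
  rw [OnePoint.isBoundedAt_iff_forall_SL2Z hc'']
  intro γ _
  exact isBoundedAtImInfty_of_rel d _ c hc0 hcb (rel_slash k d G c hcs hrelG γ)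

open Lift in
/-- **PkgB**, cusp form version. -/
theorem lift_cuspForm (N : ℕ) [NeZero N] (k w : ℤ) (d : ℕ) (U V : ℍ → ℂ)
    (hU : IsMF (G0 N) (w + k) U) (hV : IsMF (G0 N) w V) (hV0 : V ≠ 0)
    (c : ℕ → ℍ → ℂ) (hc : ∀ i : ℕ, IsMF G1 (k * i) (c i)) (hc0 : c 0 = 1)
    (hcz : ∀ i, 1 ≤ i → IsZeroAtImInfty (c i))
    (hrel : ∀ z, ∑ i ∈ Finset.range (d + 1), c i z * U z ^ (d - i) * V z ^ i = 0) :
    ∃ G : CuspForm (G0 N) k, ∀ z, G z * V z = U z := by
  have hUd : MDiff U := by obtain ⟨F, rfl⟩ := hU; exact F.holo'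
  have hVd : MDiff V := by obtain ⟨F, rfl⟩ := hV; exact F.holo'
  have hcd : ∀ i, MDiff (c i) := fun i => by obtain ⟨F, hF⟩ := hc i; rw [← hF]; exact F.holo'
  have hcs : ∀ i : ℕ, ∀ γ : SL(2, ℤ), (c i) ∣[k * i] γ = c i := fun i γ => by
    obtain ⟨F, hF⟩ := hc i
    rw [← hF]
    exact F.slash_action_eq' _ ⟨γ, rfl⟩
  obtain ⟨G, hG, hGV⟩ := exists_mdiff_quotient d U V c hUd hVd hV0 hcd hc0 hrel
  have hrelG := rel_quotient d U V G c hVd hV0 hG hcd hGV hrel
  refine ⟨{ toFun := G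
            slash_action_eq' := fun γ hγ => slash_eq_of_mul_eq N k w U V G hU hV hV0 hG hGV γ hγ
            holo' := hG
            zero_at_cusps' := fun {c'} hc' => ?_ }, hGV⟩
  have hc'' : IsCusp c' 𝒮ℒ := (Subgroup.IsArithmetic.isCusp_iff_isCusp_SL2Z (G0 N)).mp hc'
  rw [OnePoint.isZeroAt_iff_forall_SL2Z hc'']
  intro γ _
  exact isZeroAtImInfty_of_rel d _ c hc0 hcz (rel_slash k d G c hcs hrelG γ)

end Fermat.Agent.S22
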