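import Mathlib
import Fermat.Agent.S22.Basic
import Fermat.Agent.S22.Nice
import Fermat.Agent.S22.Forms
import Fermat.Agent.S22.LevelOne
import Fermat.Agent.S22.Integrality
import Fermat.Agent.S22.Lift

/-!
# Coefficientwise conjugation of cusp forms (glue for S22/S23)

Given a ring endomorphism `σ` of `ℂ` and a cusp form `f` of level `Γ₀(N)`, there is a cusp
form of the same level and weight whose `q`-expansion is obtained from that of `f` by applying
`σ` to every coefficient.  The proof writes `f = U / V` with `U`, `V` in the span of forms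
with integral `q`-expansion, conjugates `U`, `V` and the monic level one equation satisfied by
`f`, and lifts the quotient of the conjugates to an honest cusp form.
-/

set_option autoImplicit false

noncomputable section

namespace Fermat.Agent.S22

open UpperHalfPlane ModularFormClass CongruenceSubgroup Matrix.SpecialLinearGroup Function
open scoped MatrixGroups ModularForm Manifold

namespace Conj

/-- The constant coefficient of the `q`-expansion of a nice function is its value at the
cusp function at `0`. -/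
theorem coeff_zero_eq_cuspFunction (f : ℍ → ℂ) :
    (qExpansion 1 f).coeff 0 = cuspFunction 1 f 0 := by
  simp [qExpansion_coeff]

/-- A nice function whose `q`-expansion has vanishing constant term is zero at `i∞`. -/
theorem isZeroAtImInfty_of_coeff_zero {f : ℍ → ℂ} (hf : IsNice f)
    (h0 : (qExpansion 1 f).coeff 0 = 0) : IsZeroAtImInfty f := by
  have hc : cuspFunction 1 f 0 = 0 := by rwa [coeff_zero_eq_cuspFunction] at h0
  have hcomp : (cuspFunction 1 f ∘ fun τ : ℍ => Periodic.qParam 1 τ) = f := by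
    funext τ
    simpa using eq_cuspFunction τ one_ne_zero hf.per
  have ht := hf.analyticAt.continuousAt.tendsto.comp (qParam_tendsto_atImInfty one_pos)
  rw [hcomp, hc] at ht
  exact ht

/-- The `q`-expansion of a function that is zero at `i∞` has vanishing constant term. -/
theorem coeff_zero_of_isZeroAtImInfty {f : ℍ → ℂ} (hf : IsZeroAtImInfty f) :
    (qExpansion 1 f).coeff 0 = 0 := by
  rw [coeff_zero_eq_cuspFunction]
  exact hf.cuspFunction_apply_zero one_pos

/-- Cusp forms of level `Γ₀(N)` are nice. -/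
theorem isNice_cuspForm {N : ℕ} {k : ℤ} (G : CuspForm (G0 N) k) : IsNice (⇑G) where
  per := SlashInvariantFormClass.periodic_comp_ofComplex G (one_mem_strictPeriods_G0 N)
  holo := CuspFormClass.holo G
  bdd :=
    have : Fact (IsCusp OnePoint.infty (G0 N)) :=
      ⟨(G0 N).isCusp_of_mem_strictPeriods one_pos (one_mem_strictPeriods_G0 N)⟩
    (CuspFormClass.zero_at_infty G).boundedAtFilter

/-- Coefficientwise application of an injective ring hom is injective at zero. -/
theorem map_eq_zero_imp (σ : ℂ →+* ℂ) {P : PowerSeries ℂ} (h : P.map σ = 0) : P = 0 := by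
  ext n
  have := congrArg (PowerSeries.coeff n) h
  rw [PowerSeries.coeff_map, map_zero] at this
  rw [map_zero]
  exact (map_eq_zero σ).mp this

/-- The relation `Σ cᵢ f^(d-i) = 0` multiplied by `V^d`, in terms of `U = f V`. -/
theorem rel_mul_pow (d : ℕ) (c : ℕ → ℂ) (f U V : ℂ) (hUV : f * V = U)
    (h : ∑ i ∈ Finset.range (d + 1), c i * f ^ (d - i) = 0) :
    ∑ i ∈ Finset.range (d + 1), c i * U ^ (d - i) * V ^ i = 0 := by
  have hterm : ∀ i ∈ Finset.range (d + 1),
      c i * U ^ (d - i) * V ^ i = (c i * f ^ (d - i)) * V ^ d := by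
    intro i hi
    have hid : i ≤ d := Nat.lt_succ_iff.mp (Finset.mem_range.mp hi)
    have hd : V ^ d = V ^ (d - i) * V ^ i := by rw [← pow_add, Nat.sub_add_cancel hid]
    rw [← hUV, mul_pow, hd]
    ring
  rw [Finset.sum_congr rfl hterm, ← Finset.sum_mul, h, zero_mul]

end Conj

open Conj in
/-- Conjugation of cusp forms, assuming the fraction representation `f V = U`. -/
theorem exists_conj_cuspForm_of (N : ℕ) [NeZero N] (k : ℤ) (σ : ℂ →+* ℂ)
    (f : CuspForm (G0 N) k)
    (hfrac : ∃ (w : ℤ) (U V : ℍ → ℂ), U ∈ IntSpan (G0 N) (w + k) ∧ V ∈ IntSpan (G0 N) w ∧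
      V ≠ 0 ∧ ∀ z, f z * V z = U z) :
    ∃ g : CuspForm (G0 N) k, ∀ n, (qExpansion 1 g).coeff n = σ ((qExpansion 1 f).coeff n) := by
  obtain ⟨w, U, V, hU, hV, hV0, hUV⟩ := hfrac
  obtain ⟨c, hc, hc0, hcz, hrel⟩ := exists_integrality_cusp N k f
  set d := (Gamma0 N).index with hd
  have hΓ := one_mem_strictPeriods_G0 N
  -- niceness
  have hUn : IsNice U := (IntSpan.isMF hU).isNice_G0
  have hVn : IsNice V := (IntSpan.isMF hV).isNice_G0
  have hfn : IsNice (⇑f) := isNice_cuspForm f
  have hcn : ∀ i, IsNice (c i) := fun i => (hc i).isNice_G1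
  -- the relation for `U`, `V`
  have hrelUV : ∀ z, ∑ i ∈ Finset.range (d + 1), c i z * U z ^ (d - i) * V z ^ i = 0 :=
    fun z => rel_mul_pow d (fun i => c i z) (f z) (U z) (V z) (hUV z) (hrel z)
  -- conjugates
  obtain ⟨U', hU', hUq⟩ := IntSpan.exists_conj hΓ σ hU
  obtain ⟨V', hV', hVq⟩ := IntSpan.exists_conj hΓ σ hV
  have hU'n : IsNice U' := (IntSpan.isMF hU').isNice_G0
  have hV'n : IsNice V' := (IntSpan.isMF hV').isNice_G0
  have hex : ∀ i : ℕ, ∃ c' : ℍ → ℂ, IsMF G1 (k * i) c' ∧
      qExpansion 1 c' = (qExpansion 1 (c i)).map σ := fun i => levelOne_exists_conj σ (hc i)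
  choose c₁ hc₁ hc₁q using hex
  let c' : ℕ → ℍ → ℂ := fun i => if i = 0 then 1 else c₁ i
  have hc'0 : c' 0 = 1 := if_pos rfl
  have hc'pos : ∀ i, i ≠ 0 → c' i = c₁ i := fun i hi => if_neg hi
  have hc' : ∀ i : ℕ, IsMF G1 (k * i) (c' i) := by
    intro i
    by_cases hi : i = 0
    · subst hi
      rw [hc'0]
      exact IsMF.one.cast (by simp)
    · rw [hc'pos i hi]
      exact hc₁ i
  have hc'q : ∀ i : ℕ, qExpansion 1 (c' i) = (qExpansion 1 (c i)).map σ := by
    intro i
    by_cases hi : i = 0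
    · subst hi
      rw [hc'0, hc0, UpperHalfPlane.qExpansion_one, map_one]
    · rw [hc'pos i hi]
      exact hc₁q i
  have hc'n : ∀ i, IsNice (c' i) := fun i => (hc' i).isNice_G1
  -- `V' ≠ 0`
  have hVq0 : qExpansion 1 V ≠ 0 := fun h => hV0 (hVn.qExpansion_eq_zero_iff.mp h)
  have hV'q0 : qExpansion 1 V' ≠ 0 := by
    rw [hVq]
    exact fun h => hVq0 (map_eq_zero_imp σ h)
  have hV'0 : V' ≠ 0 := by
    rintro rfl
    exact hV'q0 (UpperHalfPlane.qExpansion_zero 1)
  -- cuspidality of the conjugated coefficients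
  have hcz' : ∀ i, 1 ≤ i → IsZeroAtImInfty (c' i) := by
    intro i hi
    refine isZeroAtImInfty_of_coeff_zero (hc'n i) ?_
    rw [hc'q i, PowerSeries.coeff_map, coeff_zero_of_isZeroAtImInfty (hcz i hi), map_zero]
  -- the conjugated relation
  have hterm : ∀ i ∈ Finset.range (d + 1), IsNice (c i * U ^ (d - i) * V ^ i) :=
    fun i _ => ((hcn i).mul (hUn.pow _)).mul (hVn.pow _)
  have hterm' : ∀ i ∈ Finset.range (d + 1), IsNice (c' i * U' ^ (d - i) * V' ^ i) :=
    fun i _ => ((hc'n i).mul (hU'n.pow _)).mul (hV'n.pow _)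
  have hsum0 : (∑ i ∈ Finset.range (d + 1), c i * U ^ (d - i) * V ^ i) = 0 := by
    funext z
    simpa [Finset.sum_apply] using hrelUV z
  have hsum'0 : (∑ i ∈ Finset.range (d + 1), c' i * U' ^ (d - i) * V' ^ i) = 0 := by
    refine (IsNice.sum _ hterm').qExpansion_eq_zero_iff.mp ?_
    rw [IsNice.qExpansion_sum _ hterm']
    have h1 : ∀ i ∈ Finset.range (d + 1), qExpansion 1 (c' i * U' ^ (d - i) * V' ^ i) =
        (qExpansion 1 (c i * U ^ (d - i) * V ^ i)).map σ := by
      intro i _
      rw [((hc'n i).mul (hU'n.pow _)).qExpansion_mul (hV'n.pow _),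
        (hc'n i).qExpansion_mul (hU'n.pow _), hU'n.qExpansion_pow, hV'n.qExpansion_pow,
        ((hcn i).mul (hUn.pow _)).qExpansion_mul (hVn.pow _),
        (hcn i).qExpansion_mul (hUn.pow _), hUn.qExpansion_pow, hVn.qExpansion_pow,
        hc'q i, hUq, hVq, map_mul, map_mul, map_pow, map_pow]
    rw [Finset.sum_congr rfl h1, ← map_sum, ← IsNice.qExpansion_sum _ hterm, hsum0,
      UpperHalfPlane.qExpansion_zero, map_zero]
  have hrel' : ∀ z, ∑ i ∈ Finset.range (d + 1), c' i z * U' z ^ (d - i) * V' z ^ i = 0 := by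
    intro z
    have := congrFun hsum'0 z
    simpa [Finset.sum_apply] using this
  -- lift
  obtain ⟨G, hG⟩ := lift_cuspForm N k w d U' V' (IntSpan.isMF hU') (IntSpan.isMF hV') hV'0
    c' hc' hc'0 hcz' hrel'
  refine ⟨G, ?_⟩
  have hGn : IsNice (⇑G) := isNice_cuspForm G
  have hGV : (⇑G : ℍ → ℂ) * V' = U' := funext hG
  have hfV : (⇑f : ℍ → ℂ) * V = U := funext hUV
  have hq1 : qExpansion 1 (⇑G) * qExpansion 1 V' = (qExpansion 1 (⇑f)).map σ * qExpansion 1 V' := by
    rw [← hGn.qExpansion_mul hV'n, hGV, hUq, ← hfV, hfn.qExpansion_mul hVn, map_mul, hVq]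
  have hq : qExpansion 1 (⇑G) = (qExpansion 1 (⇑f)).map σ := mul_right_cancel₀ hV'q0 hq1
  intro n
  rw [hq, PowerSeries.coeff_map]

end Fermat.Agent.S22
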