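import Mathlib
import Fermat.Agent.S22.Basic
import Fermat.Agent.S22.Nice
import Fermat.Agent.S22.Forms
import Fermat.Agent.S22.LevelOne

set_option autoImplicit false

noncomputable section

namespace Fermat.Agent.S22

open UpperHalfPlane ModularFormClass CongruenceSubgroup Matrix.SpecialLinearGroup Function
open ModularForm Filter Asymptotics
open scoped MatrixGroups ModularForm Manifold Real

namespace Indep

/-- upper triangular matrix with positive diagonal -/
theorem det_upperTriangularGL (a b d : ℝ) (had : a * d ≠ 0) :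
    ((upperTriangularGL a b d had).det : ℝ) = a * d := by
  rw [Matrix.GeneralLinearGroup.val_det_apply, val_upperTriangularGL, Matrix.det_fin_two_of]
  ring

theorem coe_upperTriangularGL_smul (a b d : ℝ) (had : 0 < a * d) (τ : ℍ) :
    ((upperTriangularGL a b d had.ne' • τ : ℍ) : ℂ) = ((a : ℂ) * τ + b) / d := by
  rw [UpperHalfPlane.coe_smul_of_det_pos (by rw [det_upperTriangularGL]; exact had)]
  simp [UpperHalfPlane.num, UpperHalfPlane.denom, val_upperTriangularGL]

theorem im_upperTriangularGL_smul (a b d : ℝ) (had : 0 < a * d) (τ : ℍ) :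
    (upperTriangularGL a b d had.ne' • τ : ℍ).im = a / d * τ.im := by
  have h := coe_upperTriangularGL_smul a b d had τ
  have h2 : (upperTriangularGL a b d had.ne' • τ : ℍ).im
      = (((a : ℂ) * τ + b) / d).im := by
    rw [← h]; rfl
  rw [h2]
  have : ((a : ℂ) * τ + b) / d = ((a / d : ℝ) : ℂ) * τ + ((b / d : ℝ) : ℂ) := by
    push_cast
    field_simp
  rw [this]
  simp

theorem denom_upperTriangularGL (a b d : ℝ) (had : a * d ≠ 0) (τ : ℍ) :
    UpperHalfPlane.denom (upperTriangularGL a b d had) τ = d := by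
  simp [UpperHalfPlane.denom, val_upperTriangularGL]

theorem σ_upperTriangularGL (a b d : ℝ) (had : 0 < a * d) :
    UpperHalfPlane.σ (upperTriangularGL a b d had.ne') = .refl ℝ ℂ := by
  rw [UpperHalfPlane.σ, if_pos (by rw [det_upperTriangularGL]; exact had)]

theorem slash_upperTriangularGL_apply (k : ℤ) (a b d : ℝ) (had : 0 < a * d) (f : ℍ → ℂ) (τ : ℍ) :
    (f ∣[k] upperTriangularGL a b d had.ne') τ =
      f (upperTriangularGL a b d had.ne' • τ) * ((a * d : ℝ) : ℂ) ^ (k - 1) * (d : ℂ) ^ (-k) := by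
  rw [ModularForm.slash_apply, σ_upperTriangularGL a b d had, det_upperTriangularGL,
    denom_upperTriangularGL]
  simp only [ContinuousAlgEquiv.refl_apply, abs_of_pos had]

/-- If `exp(-2π s y) = O(exp(-2π t y))` at `i∞` then `t ≤ s`. -/
theorem le_of_exp_isBigO (s t : ℝ)
    (h : (fun τ : ℍ => Real.exp (-2 * π * s * τ.im)) =O[atImInfty]
      (fun τ : ℍ => Real.exp (-2 * π * t * τ.im))) : t ≤ s := by
  by_contra hlt
  push Not at hlt
  obtain ⟨C, hC⟩ := h.bound
  rw [Filter.Eventually, atImInfty_mem] at hC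
  obtain ⟨A, hA⟩ := hC
  have hpos : 0 < 2 * π * (t - s) := by
    have := Real.pi_pos
    nlinarith
  -- choose y large
  set y : ℝ := max (max A 1) ((|C| + 1) / (2 * π * (t - s))) with hy
  have hy1 : 0 < y := lt_of_lt_of_le one_pos (le_trans (le_max_right _ _) (le_max_left _ _))
  have hyA : A ≤ y := le_trans (le_max_left _ _) (le_max_left _ _)
  have hyC : (|C| + 1) / (2 * π * (t - s)) ≤ y := le_max_right _ _
  have := hA ⟨Complex.I * y, by simpa using hy1⟩ (by simpa using hyA)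
  simp only [Set.mem_setOf_eq, Real.norm_eq_abs, abs_of_pos (Real.exp_pos _)] at this
  have him : (⟨Complex.I * y, by simpa using hy1⟩ : ℍ).im = y := by
    change (Complex.I * y).im = y
    simp
  rw [him] at this
  have h1 : Real.exp (2 * π * (t - s) * y) ≤ C := by
    have h2 : Real.exp (-2 * π * s * y) = Real.exp (2 * π * (t - s) * y) *
        Real.exp (-2 * π * t * y) := by
      rw [← Real.exp_add]; congr 1; ring
    rw [h2] at this
    exact le_of_mul_le_mul_right this (Real.exp_pos _)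
  have h3 : |C| + 1 ≤ 2 * π * (t - s) * y := by
    rw [div_le_iff₀ hpos] at hyC
    linarith
  have h4 : 2 * π * (t - s) * y + 1 ≤ Real.exp (2 * π * (t - s) * y) := Real.add_one_le_exp _
  have h5 : C ≤ |C| := le_abs_self C
  linarith

theorem mapGL_apply' (g : SL(2, ℤ)) (i j : Fin 2) :
    (mapGL ℝ g : GL (Fin 2) ℝ) i j = ((g i j : ℤ) : ℝ) := by
  simp

theorem SL_det_eq (g : SL(2, ℤ)) : g 0 0 * g 1 1 - g 0 1 * g 1 0 = 1 := by
  have h := g.det_coe
  rwa [Matrix.det_fin_two] at h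

/-- Hermite reduction of `diag(N,1) * δ`. -/
theorem exists_hermite (N : ℕ) [NeZero N] (δ : SL(2, ℤ)) :
    ∃ (ε : SL(2, ℤ)) (g N' : ℕ) (B : ℤ) (h : 0 < (g : ℝ) * (N' : ℝ)),
      g * N' = N ∧ ((g : ℤ) ∣ δ 1 0) ∧ (N' = 1 → (N : ℤ) ∣ δ 1 0) ∧
      (mapGL ℝ ε) * heckeDiagMatrix N * (mapGL ℝ δ) =
        upperTriangularGL (g : ℝ) (B : ℝ) (N' : ℝ) h.ne' := by
  have hN : N ≠ 0 := NeZero.ne N
  set a := δ 0 0 with ha
  set b := δ 0 1 with hb
  set c := δ 1 0 with hc
  set d := δ 1 1 with hd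
  have hdet : a * d - b * c = 1 := SL_det_eq δ
  set g : ℕ := Int.gcd N c with hg
  have hg0 : g ≠ 0 := by
    intro h0
    rw [hg, Int.gcd_eq_zero_iff] at h0
    exact hN (by exact_mod_cast h0.1)
  have hgN : (g : ℤ) ∣ (N : ℤ) := Int.gcd_dvd_left _ _
  have hgc : (g : ℤ) ∣ c := Int.gcd_dvd_right _ _
  obtain ⟨N'z, hN'z⟩ := hgN
  obtain ⟨c', hc'⟩ := hgc
  have hN'pos : 0 < N'z := by
    have h1 : (0 : ℤ) < N := by exact_mod_cast Nat.pos_of_ne_zero hN
    have h2 : (0 : ℤ) < g := by exact_mod_cast Nat.pos_of_ne_zero hg0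
    rw [hN'z] at h1
    by_contra hcon
    push Not at hcon
    nlinarith
  obtain ⟨N', rfl⟩ := Int.eq_ofNat_of_zero_le hN'pos.le
  have hNeq : g * N' = N := by exact_mod_cast hN'z.symm
  -- coprimality
  have hcop1 : IsCoprime (N' : ℤ) c' := by
    have h := Int.isCoprime_iff_gcd_eq_one.mpr
      (Int.gcd_div_gcd_div_gcd (i := (N : ℤ)) (j := c) (by
        rw [← hg]; exact Nat.pos_of_ne_zero hg0))
    rw [← hg] at h
    have e1 : (N : ℤ) / (g : ℤ) = N' := by
      rw [hN'z]; exact Int.mul_ediv_cancel_left _ (by exact_mod_cast hg0)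
    have e2 : c / (g : ℤ) = c' := by
      rw [hc']; exact Int.mul_ediv_cancel_left _ (by exact_mod_cast hg0)
    rwa [e1, e2] at h
  have hcop2 : IsCoprime a c := ⟨d, -b, by linear_combination hdet⟩
  have hcop3 : IsCoprime a c' := by
    have h1 : IsCoprime a ((g : ℤ) * c') := by rw [← hc']; exact hcop2
    exact h1.of_mul_right_right
  have hcop : IsCoprime ((N' : ℤ) * a) c' := IsCoprime.mul_left hcop1 hcop3
  obtain ⟨x, y, hxy⟩ := hcop
  -- x * (N' a) + y * c' = 1
  have hεdet : (!![x, y; -c', N' * a] : Matrix (Fin 2) (Fin 2) ℤ).det = 1 := by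
    rw [Matrix.det_fin_two_of]
    linear_combination hxy
  set ε : SL(2, ℤ) := ⟨!![x, y; -c', N' * a], hεdet⟩ with hε
  have e00 : ε 0 0 = x := rfl
  have e01 : ε 0 1 = y := rfl
  have e10 : ε 1 0 = -c' := rfl
  have e11 : ε 1 1 = N' * a := rfl
  refine ⟨ε, g, N', x * N * b + y * d, ?_, hNeq, ⟨c', hc'⟩, ?_, ?_⟩
  · have h1 : (0 : ℝ) < g := by exact_mod_cast Nat.pos_of_ne_zero hg0
    have h2 : (0 : ℝ) < N' := by exact_mod_cast hN'pos
    positivity
  · intro h1
    subst h1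
    have : g = N := by simpa using hNeq
    rw [← this]
    exact ⟨c', hc'⟩
  · have hNr : (N : ℝ) = (g : ℝ) * (N' : ℝ) := by exact_mod_cast hNeq.symm
    have hcr : (c : ℝ) = (g : ℝ) * (c' : ℝ) := by exact_mod_cast hc'
    have hdetr : (a : ℝ) * d - b * c = 1 := by exact_mod_cast hdet
    have hxyr : (x : ℝ) * (N' * a) + y * c' = 1 := by exact_mod_cast hxy
    ext i j
    fin_cases i <;> fin_cases j <;>
      simp [hN, Matrix.mul_apply, Fin.sum_univ_two, val_upperTriangularGL, ← ha, ← hb, ← hc, ← hd,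
        mapGL_apply', e00, e01, e10, e11]
    · linear_combination (g : ℝ) * hxyr + (x : ℝ) * a * hNr + (y : ℝ) * hcr
    · linear_combination (-(c' : ℝ) * a) * hNr + (N' : ℝ) * a * hcr
    · linear_combination (N' : ℝ) * hdetr + (-(c' : ℝ) * b) * hNr + (N' : ℝ) * b * hcr


theorem Dfun_slash_SL (γ : SL(2, ℤ)) : Dfun ∣[(12 : ℤ)] (mapGL ℝ γ) = Dfun := by
  obtain ⟨F, hF⟩ := isMF_Dfun
  rw [← hF]
  exact F.slash_action_eq' _ ⟨γ, rfl⟩

theorem Dfun_slash_heckeDiag (N : ℕ) [NeZero N] :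
    Dfun ∣[(12 : ℤ)] heckeDiagMatrix N = ((N : ℂ) ^ (11 : ℕ)) • DNfun N := by
  ext τ
  rw [slash_heckeDiagMatrix_apply 12 (NeZero.ne N)]
  simp only [DNfun, Pi.smul_apply, smul_eq_mul]
  norm_num

theorem isBigO_Dfun_comp (β : GL (Fin 2) ℝ) (hβ : β 1 0 = 0) :
    (fun τ : ℍ => Dfun (β • τ)) =O[atImInfty] (fun τ : ℍ => Real.exp (-2 * π * (β • τ).im)) := by
  have h1 : (CuspForm.discriminant : ℍ → ℂ) =O[atImInfty]
      fun τ ↦ Real.exp (-2 * π * τ.im / 1) :=
    CuspFormClass.exp_decay_atImInfty (h := 1) CuspForm.discriminant one_pos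
      one_mem_strictPeriods_SL
  have h2 := h1.comp_tendsto (tendsto_smul_atImInfty hβ)
  have h3 : (fun τ : ℍ => Dfun (β • τ)) = fun τ => (1728 : ℂ) * CuspForm.discriminant (β • τ) := by
    ext τ
    rw [Dfun_eq_discriminant]
    rfl
  rw [h3]
  refine (h2.const_mul_left 1728).congr_right ?_
  intro τ
  simp

theorem isBigO_exp_Dfun_comp (β : GL (Fin 2) ℝ) (hβ : β 1 0 = 0) :
    (fun τ : ℍ => Real.exp (-2 * π * (β • τ).im)) =O[atImInfty] (fun τ : ℍ => Dfun (β • τ)) := by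
  have h2 := exp_isBigO_discriminant.comp_tendsto (tendsto_smul_atImInfty hβ)
  have h3 : (fun τ : ℍ => Dfun (β • τ)) =
      fun τ => (1728 : ℂ) * ModularForm.discriminant (β • τ) := by
    ext τ
    rw [Dfun_eq_discriminant]
  rw [h3]
  refine h2.trans ?_
  refine Asymptotics.IsBigO.of_bound 1 (Filter.Eventually.of_forall fun τ => ?_)
  simp only [Function.comp_apply, norm_mul, one_mul]
  have : (1 : ℝ) ≤ ‖(1728 : ℂ)‖ := by norm_num
  calc ‖ModularForm.discriminant (β • τ)‖ = 1 * ‖ModularForm.discriminant (β • τ)‖ := by ring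
    _ ≤ ‖(1728 : ℂ)‖ * ‖ModularForm.discriminant (β • τ)‖ :=
        mul_le_mul_of_nonneg_right this (norm_nonneg _)

/-- **Key lemma**: the stabiliser of `D(Nz)` in `SL(2,ℤ)` (weight 12 slash action) is contained
in `Γ₀(N)`. -/
theorem mem_Gamma0_of_slash_DN_eq (N : ℕ) [NeZero N] (δ : SL(2, ℤ))
    (h : (DNfun N) ∣[(12 : ℤ)] δ = DNfun N) : δ ∈ Gamma0 N := by
  have hN : N ≠ 0 := NeZero.ne N
  obtain ⟨ε, g, N', B, hpos, hgN, -, hN1, hmat⟩ := exists_hermite N δ
  have hg0 : (0 : ℝ) < g := by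
    rcases Nat.eq_zero_or_pos g with h0 | h0
    · simp [h0] at hpos
    · exact_mod_cast h0
  have hN'0 : (0 : ℝ) < N' := by
    rcases Nat.eq_zero_or_pos N' with h0 | h0
    · simp [h0] at hpos
    · exact_mod_cast h0
  set β := upperTriangularGL (g : ℝ) (B : ℝ) (N' : ℝ) hpos.ne' with hβ
  -- slash identity
  have hs : Dfun ∣[(12 : ℤ)] β = Dfun ∣[(12 : ℤ)] heckeDiagMatrix N := by
    rw [← hmat, SlashAction.slash_mul, SlashAction.slash_mul, Dfun_slash_SL,
      Dfun_slash_heckeDiag, ModularForm.smul_slash]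
    have hσ : UpperHalfPlane.σ (mapGL ℝ δ) = .refl ℝ ℂ := by
      rw [UpperHalfPlane.σ, if_pos (by simp)]
    rw [hσ]
    simp only [ContinuousAlgEquiv.refl_apply]
    congr 1
  -- pointwise
  have hpt : ∀ τ : ℍ, Dfun (β • τ) = (N' : ℂ) ^ (12 : ℕ) * Dfun (heckeDiagMatrix N • τ) := by
    intro τ
    have h1 := congrFun hs τ
    have e1 : ((12 : ℤ) - 1) = ((11 : ℕ) : ℤ) := by norm_num
    have e2 : (-(12 : ℤ)) = -((12 : ℕ) : ℤ) := by norm_num
    rw [slash_upperTriangularGL_apply 12 _ _ _ hpos, slash_heckeDiagMatrix_apply 12 hN, e1, e2,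
      zpow_natCast, zpow_neg, zpow_natCast, zpow_natCast] at h1
    have hNc : (N : ℂ) = (((g : ℝ) * N' : ℝ) : ℂ) := by
      push_cast
      exact_mod_cast hgN.symm
    have hN'c : (N' : ℂ) ≠ 0 := by exact_mod_cast hN'0.ne'
    have hgc : (g : ℂ) ≠ 0 := by exact_mod_cast hg0.ne'
    rw [hNc] at h1
    have h5 : ((((g : ℝ) * N' : ℝ) : ℂ)) ^ 11 ≠ 0 := by
      apply pow_ne_zero
      push_cast
      exact mul_ne_zero hgc hN'c
    have key : Dfun (β • τ) * (((N' : ℝ) : ℂ) ^ 12)⁻¹ = Dfun (heckeDiagMatrix N • τ) := by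
      apply mul_left_cancel₀ h5
      rw [← h1]
      ring
    rw [← key]
    have hN'c' : (((N' : ℝ) : ℂ)) ≠ 0 := by exact_mod_cast hN'0.ne'
    push_cast
    field_simp
  -- asymptotics
  have hβ10 : β 1 0 = 0 := by simp [hβ, val_upperTriangularGL]
  have hα10 : (heckeDiagMatrix N) 1 0 = 0 := by simp [val_heckeDiagMatrix hN]
  have hO : (fun τ : ℍ => Real.exp (-2 * π * ((g : ℝ) / N') * τ.im)) =O[atImInfty]
      (fun τ : ℍ => Real.exp (-2 * π * (N : ℝ) * τ.im)) := by
    have e1 := isBigO_exp_Dfun_comp β hβ10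
    have e2 := isBigO_Dfun_comp (heckeDiagMatrix N) hα10
    have e3 : (fun τ : ℍ => Dfun (β • τ)) =O[atImInfty]
        (fun τ : ℍ => Dfun (heckeDiagMatrix N • τ)) := by
      have : (fun τ : ℍ => Dfun (β • τ)) =
          fun τ => (N' : ℂ) ^ (12 : ℕ) * Dfun (heckeDiagMatrix N • τ) := funext hpt
      rw [this]
      exact (Asymptotics.isBigO_refl _ _).const_mul_left _
    have e4 := (e1.trans e3).trans e2
    refine (e4.congr_left ?_).congr_right ?_
    · intro τ
      rw [hβ, im_upperTriangularGL_smul _ _ _ hpos]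
      congr 1; ring
    · intro τ
      have : (heckeDiagMatrix N • τ : ℍ).im = N * τ.im := by
        have := coe_heckeDiagMatrix_smul hN τ
        have h2 : (heckeDiagMatrix N • τ : ℍ).im = ((N : ℂ) * (τ : ℂ)).im := by
          rw [← this]; rfl
        rw [h2]
        simp
      rw [this]
      congr 1; ring
  have hle := le_of_exp_isBigO _ _ hO
  -- N ≤ g / N' and g * N' = N force N' = 1
  have hN'1 : N' = 1 := by
    have hNr : (N : ℝ) = g * N' := by exact_mod_cast hgN.symm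
    rw [hNr, le_div_iff₀ hN'0] at hle
    have h1 : (N' : ℝ) * N' ≤ 1 := by
      have : (g : ℝ) * (N' * N') ≤ g * 1 := by nlinarith
      exact le_of_mul_le_mul_left this hg0
    have h2 : (1 : ℝ) ≤ N' := by
      have : 0 < N' := by exact_mod_cast hN'0
      exact_mod_cast this
    have h3 : (N' : ℝ) = 1 := by nlinarith
    exact_mod_cast h3
  rw [Gamma0_mem]
  exact (ZMod.intCast_zmod_eq_zero_iff_dvd _ _).mpr (hN1 hN'1)


theorem mdiff_Dfun : MDiff Dfun := isNice_Dfun.holo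

theorem mdiff_DNfun (N : ℕ) [NeZero N] : MDiff (DNfun N) := by
  have h1 : MDiff (Dfun ∣[(12 : ℤ)] heckeDiagMatrix N) := mdiff_Dfun.slash 12 _
  rw [Dfun_slash_heckeDiag] at h1
  have hN : ((N : ℂ) ^ (11 : ℕ)) ≠ 0 := pow_ne_zero _ (by exact_mod_cast NeZero.ne N)
  have h2 : DNfun N = ((N : ℂ) ^ (11 : ℕ))⁻¹ • (((N : ℂ) ^ (11 : ℕ)) • DNfun N) := by
    rw [smul_smul, inv_mul_cancel₀ hN, one_smul]
  rw [h2]
  exact h1.const_smul _

/-- The conjugates of `D_N`. -/
def conj (N : ℕ) (γ : SL(2, ℤ)) : ℍ → ℂ := (DNfun N) ∣[(12 : ℤ)] γ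

theorem mdiff_conj (N : ℕ) [NeZero N] (γ : SL(2, ℤ)) : MDiff (conj N γ) :=
  (mdiff_DNfun N).slash 12 _

theorem conj_apply (N : ℕ) (γ : SL(2, ℤ)) (z : ℍ) :
    conj N γ z = DNfun N (γ • z) * UpperHalfPlane.denom γ z ^ (-(12 : ℤ)) :=
  ModularForm.SL_slash_apply _ _ _

theorem conj_eq_imp (N : ℕ) [NeZero N] (γ γ' : SL(2, ℤ)) (h : conj N γ = conj N γ') :
    γ * γ'⁻¹ ∈ Gamma0 N := by
  apply mem_Gamma0_of_slash_DN_eq
  have h1 : (conj N γ) ∣[(12 : ℤ)] γ'⁻¹ = (conj N γ') ∣[(12 : ℤ)] γ'⁻¹ := by rw [h]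
  simp only [conj, ← SlashAction.slash_mul] at h1
  rw [h1, mul_inv_cancel, SlashAction.slash_one]

theorem levelOne_apply_smul {m : ℤ} {f : ℍ → ℂ} (hf : IsMF G1 m f) (γ : SL(2, ℤ)) (z : ℍ) :
    f (γ • z) = UpperHalfPlane.denom γ z ^ m * f z := by
  obtain ⟨F, rfl⟩ := hf
  have h1 : (⇑F) ∣[m] γ = ⇑F := F.slash_action_eq' _ ⟨γ, rfl⟩
  have h2 := congrFun h1 z
  rw [ModularForm.SL_slash_apply] at h2
  have hd : UpperHalfPlane.denom γ z ≠ 0 := UpperHalfPlane.denom_ne_zero γ z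
  rw [← h2, mul_comm, mul_assoc, ← zpow_add₀ hd]
  simp

/-- The relation transported to a conjugate. -/
theorem relation_conj (N : ℕ) [NeZero N] (m : ℤ) (g : ℕ → ℍ → ℂ) (d : ℕ)
    (hg : ∀ i, IsMF G1 m (g i))
    (h : ∀ z, ∑ i ∈ Finset.range d, g i z * DNfun N z ^ i * Dfun z ^ (d - 1 - i) = 0)
    (γ : SL(2, ℤ)) (z : ℍ) :
    ∑ i ∈ Finset.range d, g i z * conj N γ z ^ i * Dfun z ^ (d - 1 - i) = 0 := by
  have h1 := h (γ • z)
  set den := UpperHalfPlane.denom γ z with hden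
  have hd : den ≠ 0 := UpperHalfPlane.denom_ne_zero γ z
  have hDN : DNfun N (γ • z) = conj N γ z * den ^ (12 : ℕ) := by
    rw [conj_apply, mul_assoc, ← zpow_natCast, ← zpow_add₀ hd]
    simp
  have hD : Dfun (γ • z) = den ^ (12 : ℕ) * Dfun z := by
    rw [levelOne_apply_smul isMF_Dfun γ z, ← zpow_natCast]
    rfl
  have hterm : ∀ i ∈ Finset.range d,
      g i (γ • z) * DNfun N (γ • z) ^ i * Dfun (γ • z) ^ (d - 1 - i) =
        (den ^ m * (den ^ (12 : ℕ)) ^ (d - 1)) *
          (g i z * conj N γ z ^ i * Dfun z ^ (d - 1 - i)) := by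
    intro i hi
    have hi' : i ≤ d - 1 := by
      have := Finset.mem_range.mp hi
      omega
    rw [levelOne_apply_smul (hg i) γ z, hDN, hD, mul_pow, mul_pow]
    have : (den ^ (12 : ℕ)) ^ (d - 1) = (den ^ (12 : ℕ)) ^ i * (den ^ (12 : ℕ)) ^ (d - 1 - i) := by
      rw [← pow_add]
      congr 1
      omega
    rw [this]
    ring
  rw [Finset.sum_congr rfl hterm, ← Finset.mul_sum] at h1
  have hne : den ^ m * (den ^ (12 : ℕ)) ^ (d - 1) ≠ 0 :=
    mul_ne_zero (zpow_ne_zero _ hd) (pow_ne_zero _ (pow_ne_zero _ hd))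
  exact (mul_eq_zero.mp h1).resolve_left hne

end Indep

open Indep in
theorem indep_DN (N : ℕ) [NeZero N] (m : ℤ) (g : ℕ → ℍ → ℂ)
    (hg : ∀ i, IsMF G1 m (g i))
    (h : ∀ z, ∑ i ∈ Finset.range (Gamma0 N).index,
      g i z * DNfun N z ^ i * Dfun z ^ ((Gamma0 N).index - 1 - i) = 0) :
    ∀ i, i < (Gamma0 N).index → g i = 0 := by
  classical
  set d := (Gamma0 N).index with hd
  -- the coset space
  haveI : Finite (SL(2, ℤ) ⧸ Gamma0 N) := Subgroup.finite_quotient_of_finiteIndex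
  letI : Fintype (SL(2, ℤ) ⧸ Gamma0 N) := Fintype.ofFinite _
  have hcard : Fintype.card (SL(2, ℤ) ⧸ Gamma0 N) = d := by
    rw [hd, Subgroup.index, Nat.card_eq_fintype_card]
  set γ : SL(2, ℤ) ⧸ Gamma0 N → SL(2, ℤ) := fun q => (Quotient.out q)⁻¹ with hγ
  set x : SL(2, ℤ) ⧸ Gamma0 N → ℍ → ℂ := fun q => conj N (γ q) with hx
  have hxinj : Function.Injective x := by
    intro q q' hqq
    have h1 := conj_eq_imp N (γ q) (γ q') hqq
    simp only [hγ, inv_inv] at h1
    have h2 : (QuotientGroup.mk (Quotient.out q) : SL(2, ℤ) ⧸ Gamma0 N) =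
        QuotientGroup.mk (Quotient.out q') := QuotientGroup.eq.mpr h1
    simpa using h2
  -- the discriminant-like product
  set W : ℍ → ℂ := ∏ p ∈ (Finset.univ : Finset (SL(2, ℤ) ⧸ Gamma0 N)).offDiag, (x p.1 - x p.2)
    with hW
  have hWne : W ≠ 0 := by
    intro hW0
    rw [hW, UpperHalfPlane.prod_eq_zero_iff
      (fun p _ => (mdiff_conj N _).sub (mdiff_conj N _))] at hW0
    obtain ⟨p, hp, hp0⟩ := hW0
    have : p.1 ≠ p.2 := (Finset.mem_offDiag.mp hp).2.2
    exact this (hxinj (sub_eq_zero.mp hp0))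
  have hWmd : MDiff W := by
    rw [hW]
    exact MDifferentiable.prod fun p _ => (mdiff_conj N _).sub (mdiff_conj N _)
  intro i hi
  have hgi : MDiff (g i) := ((hg i).isNice_G1).holo
  have hmul : g i * W = 0 := by
    ext z
    simp only [Pi.mul_apply, Pi.zero_apply]
    by_cases hWz : W z = 0
    · rw [hWz, mul_zero]
    -- the conjugate values at z are pairwise distinct
    have hinjz : Function.Injective fun q => x q z := by
      intro q q' hqq
      by_contra hne
      apply hWz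
      rw [hW, Finset.prod_apply]
      apply Finset.prod_eq_zero (i := (q, q'))
      · exact Finset.mem_offDiag.mpr ⟨Finset.mem_univ _, Finset.mem_univ _, hne⟩
      · simpa using sub_eq_zero.mpr hqq
    -- the polynomial
    set P : Polynomial ℂ := ∑ j ∈ Finset.range d,
      Polynomial.C (g j z * Dfun z ^ (d - 1 - j)) * Polynomial.X ^ j with hP
    have hPeval : ∀ q, P.eval (x q z) = 0 := by
      intro q
      have := relation_conj N m g d hg h (γ q) z
      rw [hP, Polynomial.eval_finset_sum]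
      rw [← this]
      refine Finset.sum_congr rfl fun j _ => ?_
      simp only [Polynomial.eval_mul, Polynomial.eval_C, Polynomial.eval_pow, Polynomial.eval_X]
      simp only [hx]
      ring
    have hPdeg : P.natDegree < Fintype.card (SL(2, ℤ) ⧸ Gamma0 N) := by
      rw [hcard]
      have hd0 : 0 < d := lt_of_le_of_lt (Nat.zero_le _) hi
      rw [hP]
      refine lt_of_le_of_lt (Polynomial.natDegree_sum_le_of_forall_le _ _ (n := d - 1) ?_) (by omega)
      intro j hj
      have := Finset.mem_range.mp hj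
      refine le_trans (Polynomial.natDegree_C_mul_X_pow_le _ _) (by omega)
    have hP0 : P = 0 :=
      Polynomial.eq_zero_of_natDegree_lt_card_of_eval_eq_zero P hinjz hPeval hPdeg
    have hcoeff : P.coeff i = g i z * Dfun z ^ (d - 1 - i) := by
      rw [hP, Polynomial.finset_sum_coeff]
      simp only [Polynomial.coeff_C_mul, Polynomial.coeff_X_pow]
      rw [Finset.sum_eq_single i]
      · simp
      · intro j _ hji
        simp [Ne.symm hji]
      · intro hni
        exact absurd (Finset.mem_range.mpr hi) hni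
    rw [hP0, Polynomial.coeff_zero] at hcoeff
    have := (mul_eq_zero.mp hcoeff.symm).resolve_right (pow_ne_zero _ (Dfun_ne_zero z))
    rw [this, zero_mul]
  exact ((UpperHalfPlane.mul_eq_zero_iff hgi hWmd).mp hmul).resolve_right hWne


end Fermat.Agent.S22
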