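/-
S22/S23 integral structure project, package BD (helper28): bounded denominators.
A cusp form with rational q-expansion that is a quotient of two elements of IntSpan and
is integral over level one forms has a q-expansion with bounded denominators.
-/
import Mathlib
import Fermat.Agent.S22.Basic
import Fermat.Agent.S22.Nice
import Fermat.Agent.S22.Forms
import Fermat.Agent.S22.LevelOne

set_option autoImplicit false

noncomputable section

namespace Fermat.Agent.S22.BD

open PowerSeries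

/-- Coefficientwise application of a `ℚ`-linear functional `π : ℂ → ℚ` to a power series. -/
def cmap (π : ℂ →ₗ[ℚ] ℚ) (P : PowerSeries ℂ) : PowerSeries ℂ :=
  PowerSeries.mk fun n => ((π (coeff n P) : ℚ) : ℂ)

@[simp] theorem coeff_cmap (π : ℂ →ₗ[ℚ] ℚ) (P : PowerSeries ℂ) (n : ℕ) :
    coeff n (cmap π P) = ((π (coeff n P) : ℚ) : ℂ) := by
  simp [cmap]

theorem cmap_zero (π : ℂ →ₗ[ℚ] ℚ) : cmap π 0 = 0 := by
  ext n; simp

theorem cmap_add (π : ℂ →ₗ[ℚ] ℚ) (P Q : PowerSeries ℂ) :
    cmap π (P + Q) = cmap π P + cmap π Q := by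
  ext n; simp

theorem cmap_sum (π : ℂ →ₗ[ℚ] ℚ) {ι : Type*} (s : Finset ι) (F : ι → PowerSeries ℂ) :
    cmap π (∑ i ∈ s, F i) = ∑ i ∈ s, cmap π (F i) := by
  classical
  induction s using Finset.induction_on with
  | empty => simp [cmap_zero]
  | insert a s ha ih => rw [Finset.sum_insert ha, Finset.sum_insert ha, cmap_add, ih]

/-- A power series over `ℂ` with rational coefficients. -/
def IsRatP (G : PowerSeries ℂ) : Prop := ∀ n, ∃ r : ℚ, coeff n G = (r : ℂ)

theorem IsRatP.one : IsRatP 1 := fun n => by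
  by_cases h : n = 0
  · exact ⟨1, by simp [h]⟩
  · exact ⟨0, by simp [PowerSeries.coeff_one, h]⟩

theorem IsRatP.mul {G H : PowerSeries ℂ} (hG : IsRatP G) (hH : IsRatP H) : IsRatP (G * H) :=
  fun n => by
  choose a ha using hG
  choose b hb using hH
  refine ⟨∑ p ∈ Finset.HasAntidiagonal.antidiagonal n, a p.1 * b p.2, ?_⟩
  rw [PowerSeries.coeff_mul]
  push_cast
  exact Finset.sum_congr rfl fun p _ => by rw [ha, hb]

theorem IsRatP.pow {G : PowerSeries ℂ} (hG : IsRatP G) (n : ℕ) : IsRatP (G ^ n) := by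
  induction n with
  | zero => simpa using IsRatP.one
  | succ n ih => rw [pow_succ]; exact ih.mul hG

theorem map_rat_mul (π : ℂ →ₗ[ℚ] ℚ) (r : ℚ) (z : ℂ) : π ((r : ℂ) * z) = r * π z := by
  have : (r : ℂ) * z = r • z := by
    rw [Algebra.smul_def]; rfl
  rw [this, map_smul, smul_eq_mul]

/-- Multiplication by a rational power series commutes with `cmap`. -/
theorem cmap_mul_of_isRatP (π : ℂ →ₗ[ℚ] ℚ) {G : PowerSeries ℂ} (hG : IsRatP G)
    (P : PowerSeries ℂ) : cmap π (G * P) = G * cmap π P := by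
  choose a ha using hG
  ext n
  rw [coeff_cmap, PowerSeries.coeff_mul, PowerSeries.coeff_mul, map_sum]
  push_cast
  refine Finset.sum_congr rfl fun p _ => ?_
  rw [ha, map_rat_mul, coeff_cmap]
  push_cast
  rfl

theorem cmap_smul_of_rat (π : ℂ →ₗ[ℚ] ℚ) (hπ : π 1 = 1) {G : PowerSeries ℂ} (hG : IsRatP G) :
    cmap π G = G := by
  ext n
  obtain ⟨r, hr⟩ := hG n
  rw [coeff_cmap, hr]
  have := map_rat_mul π r 1
  rw [mul_one, hπ, mul_one] at this
  rw [this]


/-- A complex power series with bounded denominators. -/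
def BoundedDen (P : PowerSeries ℂ) : Prop :=
  ∃ D : ℕ, 0 < D ∧ ∃ Q : PowerSeries ℤ, (D : ℂ) • P = algebraMap (PowerSeries ℤ) (PowerSeries ℂ) Q

theorem coeff_algebraMap_int (Q : PowerSeries ℤ) (n : ℕ) :
    coeff n (algebraMap (PowerSeries ℤ) (PowerSeries ℂ) Q) = ((coeff n Q : ℤ) : ℂ) := by
  rw [PowerSeries.algebraMap_apply'', PowerSeries.coeff_map]
  rfl

theorem algebraMap_int_injective :
    Function.Injective (algebraMap (PowerSeries ℤ) (PowerSeries ℂ)) := by
  intro P Q h
  ext n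
  have := congrArg (coeff n) h
  rw [coeff_algebraMap_int, coeff_algebraMap_int] at this
  exact_mod_cast this

theorem BoundedDen.zero : BoundedDen 0 := ⟨1, one_pos, 0, by simp⟩

theorem BoundedDen.add {P Q : PowerSeries ℂ} (hP : BoundedDen P) (hQ : BoundedDen Q) :
    BoundedDen (P + Q) := by
  obtain ⟨D₁, hD₁, A, hA⟩ := hP
  obtain ⟨D₂, hD₂, B, hB⟩ := hQ
  refine ⟨D₁ * D₂, Nat.mul_pos hD₁ hD₂, (D₂ : PowerSeries ℤ) * A + (D₁ : PowerSeries ℤ) * B, ?_⟩
  ext n
  have h1 := congrArg (coeff n) hA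
  have h2 := congrArg (coeff n) hB
  simp only [PowerSeries.coeff_smul, smul_eq_mul, coeff_algebraMap_int] at h1 h2
  simp only [PowerSeries.coeff_smul, smul_eq_mul, coeff_algebraMap_int, map_add]
  have e1 : coeff n ((D₂ : PowerSeries ℤ) * A) = (D₂ : ℤ) * coeff n A := by
    rw [← map_natCast (PowerSeries.C (R := ℤ)) D₂, PowerSeries.coeff_C_mul]
  have e2 : coeff n ((D₁ : PowerSeries ℤ) * B) = (D₁ : ℤ) * coeff n B := by
    rw [← map_natCast (PowerSeries.C (R := ℤ)) D₁, PowerSeries.coeff_C_mul]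
  rw [e1, e2]
  push_cast
  rw [← h1, ← h2]
  ring

theorem BoundedDen.rat_smul (r : ℚ) (Q : PowerSeries ℤ) :
    BoundedDen ((r : ℂ) • algebraMap (PowerSeries ℤ) (PowerSeries ℂ) Q) := by
  refine ⟨r.den, r.den_pos, (r.num : PowerSeries ℤ) * Q, ?_⟩
  ext n
  have e1 : coeff n ((r.num : PowerSeries ℤ) * Q) = r.num * coeff n Q := by
    rw [← map_intCast (PowerSeries.C (R := ℤ)) r.num, PowerSeries.coeff_C_mul]
    simp
  simp only [PowerSeries.coeff_smul, smul_eq_mul, coeff_algebraMap_int, e1]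
  push_cast
  have hr : (r : ℂ) = (r.num : ℂ) / (r.den : ℂ) := by
    exact_mod_cast (Rat.num_div_den r).symm
  have hden : (r.den : ℂ) ≠ 0 := by exact_mod_cast r.den_ne_zero
  rw [hr]
  field_simp

theorem cmap_smul_algebraMap (π : ℂ →ₗ[ℚ] ℚ) (c : ℂ) (Q : PowerSeries ℤ) :
    cmap π (c • algebraMap (PowerSeries ℤ) (PowerSeries ℂ) Q) =
      ((π c : ℚ) : ℂ) • algebraMap (PowerSeries ℤ) (PowerSeries ℂ) Q := by
  ext n
  simp only [coeff_cmap, PowerSeries.coeff_smul, smul_eq_mul, coeff_algebraMap_int]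
  have : c * ((coeff n Q : ℤ) : ℂ) = (((coeff n Q : ℤ) : ℚ) : ℂ) * c := by
    push_cast; ring
  rw [this, map_rat_mul]
  push_cast
  ring

open UpperHalfPlane ModularFormClass in
/-- For an element of `IntSpan`, applying a rational functional coefficientwise to any scalar
multiple of the `q`-expansion gives a power series with bounded denominators. -/
theorem boundedDen_cmap_of_mem_intSpan (π : ℂ →ₗ[ℚ] ℚ) {Γ : Subgroup (GL (Fin 2) ℝ)}
    [Γ.HasDetOne] (hΓ : (1 : ℝ) ∈ Γ.strictPeriods) {k : ℤ} {f : ℍ → ℂ}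
    (hf : f ∈ IntSpan Γ k) (c : ℂ) : BoundedDen (cmap π (c • qExpansion 1 f)) := by
  revert c
  refine Submodule.span_induction
    (p := fun f _ => ∀ c : ℂ, BoundedDen (cmap π (c • qExpansion 1 f))) ?_ ?_ ?_ ?_ hf
  · rintro x ⟨hx, hxi⟩ c
    choose m hm using hxi
    have hq : qExpansion 1 x = algebraMap (PowerSeries ℤ) (PowerSeries ℂ) (PowerSeries.mk m) := by
      ext n
      rw [coeff_algebraMap_int, PowerSeries.coeff_mk, hm]
    rw [hq, cmap_smul_algebraMap]
    exact BoundedDen.rat_smul _ _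
  · intro c
    rw [UpperHalfPlane.qExpansion_zero, smul_zero, cmap_zero]
    exact BoundedDen.zero
  · intro x y hx hy ihx ihy c
    rw [((IntSpan.isMF hx).isNice hΓ).qExpansion_add ((IntSpan.isMF hy).isNice hΓ), smul_add,
      cmap_add]
    exact (ihx c).add (ihy c)
  · intro a x hx ihx c
    rw [((IntSpan.isMF hx).isNice hΓ).qExpansion_smul, smul_smul]
    exact ihx (c * a)

/-- In a domain `S` over an integrally closed domain `R` (injectively), an element `x`
integral over `R` with `x * a = b`, `a ≠ 0`, `a b ∈ R`, lies in `R`. -/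
theorem exists_algebraMap_eq_of_isIntegral_of_mul_eq {R S : Type*} [CommRing R] [IsDomain R]
    [IsIntegrallyClosed R] [CommRing S] [IsDomain S] [Algebra R S]
    (hinj : Function.Injective (algebraMap R S)) {x : S} (hx : IsIntegral R x)
    {a b : R} (ha : a ≠ 0) (hab : x * algebraMap R S a = algebraMap R S b) :
    ∃ r : R, algebraMap R S r = x := by
  have : FaithfulSMul R S := (faithfulSMul_iff_algebraMap_injective R S).mpr hinj
  let K := FractionRing R
  let L := FractionRing S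
  have : FaithfulSMul R L := by
    rw [faithfulSMul_iff_algebraMap_injective, IsScalarTower.algebraMap_eq R S L]
    exact (IsFractionRing.injective S L).comp hinj
  let _ : Algebra K L := FractionRing.liftAlgebra R L
  have : IsScalarTower R K L := FractionRing.isScalarTower_liftAlgebra R L
  have haK : algebraMap R K a ≠ 0 := by
    intro h
    exact ha ((IsFractionRing.injective R K) (by rw [h, map_zero]))
  set y : K := algebraMap R K b / algebraMap R K a with hy
  have hyx : algebraMap K L y = algebraMap S L x := by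
    have haL : algebraMap K L (algebraMap R K a) ≠ 0 := by
      intro h
      exact haK ((algebraMap K L).injective (by rw [h, map_zero]))
    rw [hy, map_div₀, div_eq_iff haL, ← IsScalarTower.algebraMap_apply R K L,
      ← IsScalarTower.algebraMap_apply R K L, IsScalarTower.algebraMap_apply R S L a,
      IsScalarTower.algebraMap_apply R S L b, ← map_mul, hab]
  have hxL : IsIntegral R (algebraMap S L x) := hx.map (IsScalarTower.toAlgHom R S L)
  have hyint : IsIntegral R y := by
    rw [← hyx] at hxL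
    exact (isIntegral_algebraMap_iff (algebraMap K L).injective).mp hxL
  obtain ⟨r, hr⟩ := IsIntegrallyClosed.isIntegral_iff.mp hyint
  refine ⟨r, ?_⟩
  have h1 : algebraMap R K (r * a) = algebraMap R K b := by
    rw [map_mul, hr, hy, div_mul_cancel₀ _ haK]
  have h2 : r * a = b := IsFractionRing.injective R K h1
  have haS : algebraMap R S a ≠ 0 := by
    intro h
    exact ha (hinj (by rw [h, map_zero]))
  apply mul_right_cancel₀ haS
  rw [hab, ← map_mul, h2]


theorem exists_functional : ∃ π : ℂ →ₗ[ℚ] ℚ, π 1 = 1 := by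
  obtain ⟨g, hg⟩ := LinearMap.exists_leftInverse_of_injective (Algebra.linearMap ℚ ℂ)
    (LinearMap.ker_eq_bot.mpr (algebraMap ℚ ℂ).injective)
  refine ⟨g, ?_⟩
  have := congrArg (fun f => f 1) hg
  simpa using this

theorem natCast_smul_algebraMap (n : ℕ) (Q : PowerSeries ℤ) :
    (n : ℂ) • algebraMap (PowerSeries ℤ) (PowerSeries ℂ) Q =
      algebraMap (PowerSeries ℤ) (PowerSeries ℂ) ((n : PowerSeries ℤ) * Q) := by
  ext m
  have e1 : coeff m ((n : PowerSeries ℤ) * Q) = (n : ℤ) * coeff m Q := by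
    rw [← map_natCast (PowerSeries.C (R := ℤ)) n, PowerSeries.coeff_C_mul]
  simp only [PowerSeries.coeff_smul, smul_eq_mul, coeff_algebraMap_int, e1]
  push_cast
  ring

theorem natCast_powerSeries_ne_zero {n : ℕ} (hn : 0 < n) : (n : PowerSeries ℤ) ≠ 0 := by
  intro h
  have := congrArg (PowerSeries.constantCoeff (R := ℤ)) h
  rw [map_natCast, map_zero] at this
  exact hn.ne' (by exact_mod_cast this)

theorem exists_common_den {ι : Type*} (s : Finset ι) (P : ι → PowerSeries ℂ)
    (h : ∀ i ∈ s, BoundedDen (P i)) :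
    ∃ D : ℕ, 0 < D ∧ ∀ i ∈ s, ∃ Q : PowerSeries ℤ,
      (D : ℂ) • P i = algebraMap (PowerSeries ℤ) (PowerSeries ℂ) Q := by
  classical
  induction s using Finset.induction_on with
  | empty => exact ⟨1, one_pos, by simp⟩
  | insert a s ha ih =>
    obtain ⟨D₁, hD₁, H₁⟩ := ih fun i hi => h i (Finset.mem_insert_of_mem hi)
    obtain ⟨D₂, hD₂, Q₂, hQ₂⟩ := h a (Finset.mem_insert_self a s)
    refine ⟨D₁ * D₂, Nat.mul_pos hD₁ hD₂, fun i hi => ?_⟩
    rcases Finset.mem_insert.mp hi with rfl | hi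
    · refine ⟨(D₁ : PowerSeries ℤ) * Q₂, ?_⟩
      rw [← natCast_smul_algebraMap, ← hQ₂, smul_smul]
      push_cast
      rfl
    · obtain ⟨Q₁, hQ₁⟩ := H₁ i hi
      refine ⟨(D₂ : PowerSeries ℤ) * Q₁, ?_⟩
      rw [← natCast_smul_algebraMap, ← hQ₁, smul_smul]
      push_cast
      rw [mul_comm]

end Fermat.Agent.S22.BD

namespace Fermat.Agent.S22

open UpperHalfPlane ModularFormClass CongruenceSubgroup Matrix.SpecialLinearGroup
open scoped MatrixGroups ModularForm Manifold
open BD PowerSeries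

theorem bounded_denominators_of (N : ℕ) [NeZero N] (k : ℤ) (g : CuspForm (G0 N) k)
    (hg : IsRatQ g)
    (w : ℤ) (U V : ℍ → ℂ) (hU : U ∈ IntSpan (G0 N) (w + k)) (hV : V ∈ IntSpan (G0 N) w)
    (hV0 : V ≠ 0) (hUV : ∀ z, g z * V z = U z)
    (d : ℕ) (c : ℕ → ℍ → ℂ) (hc : ∀ i : ℕ, IsMF G1 (k * i) (c i)) (hc0 : c 0 = 1)
    (hrel : ∀ z, ∑ i ∈ Finset.range (d + 1), c i z * g z ^ (d - i) = 0) :
    ∃ D : ℕ, 0 < D ∧ ∀ n, ∃ m : ℤ, (D : ℂ) * (qExpansion 1 g).coeff n = m := by
  obtain ⟨π, hπ⟩ := exists_functional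
  have hGrat : IsRatP (qExpansion 1 g) := hg
  have hgMF : IsMF (G0 N) k (g : ℍ → ℂ) := ⟨ModularFormClass.modularForm g, rfl⟩
  have hgN : IsNice (g : ℍ → ℂ) := hgMF.isNice_G0
  have hVN : IsNice V := (IntSpan.isMF hV).isNice_G0
  have hUN : IsNice U := (IntSpan.isMF hU).isNice_G0
  have hcN : ∀ i, IsNice (c i) := fun i => (hc i).isNice_G1
  -- Step 1: `G * a = b` with `a b` integral power series, `a ≠ 0`.
  have h1 : qExpansion 1 g * qExpansion 1 V = qExpansion 1 U := by
    rw [← hgN.qExpansion_mul hVN]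
    congr 1
    funext z
    exact hUV z
  have hVq : qExpansion 1 V ≠ 0 := fun h => hV0 (hVN.qExpansion_eq_zero_iff.mp h)
  obtain ⟨n₀, hn₀⟩ : ∃ n, coeff n (qExpansion 1 V) ≠ 0 := by
    by_contra hcon
    refine hVq (PowerSeries.ext fun n => ?_)
    rw [map_zero]
    by_contra hne
    exact hcon ⟨n, hne⟩
  set c₀ : ℂ := (coeff n₀ (qExpansion 1 V))⁻¹ with hc₀
  have hA : BoundedDen (cmap π (c₀ • qExpansion 1 V)) :=
    boundedDen_cmap_of_mem_intSpan π (one_mem_strictPeriods_G0 N) hV c₀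
  have hB : BoundedDen (cmap π (c₀ • qExpansion 1 U)) :=
    boundedDen_cmap_of_mem_intSpan π (one_mem_strictPeriods_G0 N) hU c₀
  have hAB : qExpansion 1 g * cmap π (c₀ • qExpansion 1 V) = cmap π (c₀ • qExpansion 1 U) := by
    rw [← cmap_mul_of_isRatP π hGrat, mul_smul_comm, h1]
  have hA0 : cmap π (c₀ • qExpansion 1 V) ≠ 0 := by
    intro h
    have := congrArg (coeff n₀) h
    rw [coeff_cmap, PowerSeries.coeff_smul, smul_eq_mul, hc₀, inv_mul_cancel₀ hn₀, hπ] at this
    simp at this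
  obtain ⟨D₁, hD₁, QA, hQA⟩ := hA
  obtain ⟨D₂, hD₂, QB, hQB⟩ := hB
  have hQA0 : QA ≠ 0 := by
    rintro rfl
    rw [map_zero] at hQA
    have hD₁' : (D₁ : ℂ) ≠ 0 := by exact_mod_cast hD₁.ne'
    exact hA0 ((smul_eq_zero.mp hQA).resolve_left hD₁')
  have hab : qExpansion 1 g * algebraMap (PowerSeries ℤ) (PowerSeries ℂ) ((D₂ : PowerSeries ℤ) * QA)
      = algebraMap (PowerSeries ℤ) (PowerSeries ℂ) ((D₁ : PowerSeries ℤ) * QB) := by
    rw [← natCast_smul_algebraMap, ← natCast_smul_algebraMap, ← hQA, ← hQB, ← hAB]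
    simp only [mul_smul_comm, smul_smul]
    rw [mul_comm]
  have ha0 : (D₂ : PowerSeries ℤ) * QA ≠ 0 := by
    exact mul_ne_zero (natCast_powerSeries_ne_zero hD₂) hQA0
  -- Step 2: a polynomial relation with integral coefficients.
  have h2 : ∑ i ∈ Finset.range (d + 1), qExpansion 1 (c i) * qExpansion 1 g ^ (d - i) = 0 := by
    have hfun : ∑ i ∈ Finset.range (d + 1), c i * (g : ℍ → ℂ) ^ (d - i) = 0 := by
      funext z
      simpa using hrel z
    have := congrArg (qExpansion 1) hfun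
    rw [IsNice.qExpansion_sum _ (fun i _ => (hcN i).mul (hgN.pow _)),
      UpperHalfPlane.qExpansion_zero] at this
    rw [← this]
    refine Finset.sum_congr rfl fun i _ => ?_
    rw [(hcN i).qExpansion_mul (hgN.pow _), hgN.qExpansion_pow]
  have h3 : ∑ i ∈ Finset.range (d + 1),
      cmap π (qExpansion 1 (c i)) * qExpansion 1 g ^ (d - i) = 0 := by
    have := congrArg (cmap π) h2
    rw [cmap_sum, cmap_zero] at this
    rw [← this]
    refine Finset.sum_congr rfl fun i _ => ?_
    rw [mul_comm (qExpansion 1 (c i)), cmap_mul_of_isRatP π (hGrat.pow _), mul_comm]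
  have hC : ∀ i ∈ Finset.range (d + 1), BoundedDen (cmap π (qExpansion 1 (c i))) := by
    intro i _
    obtain ⟨F, hF⟩ := hc i
    have hmem : c i ∈ IntSpan G1 (k * i) := hF ▸ levelOne_mem_intSpan (k * i) F
    have := boundedDen_cmap_of_mem_intSpan π one_mem_strictPeriods_G1 hmem 1
    rwa [one_smul] at this
  obtain ⟨D, hD, HD⟩ := exists_common_den _ _ hC
  choose! Q hQ using HD
  have hDC : (D : ℂ) ≠ 0 := by exact_mod_cast hD.ne'
  -- the coefficient for `i = 0` is `D`
  have hQ0 : Q 0 = (D : PowerSeries ℤ) := by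
    apply algebraMap_int_injective
    rw [← hQ 0 (by simp), hc0, UpperHalfPlane.qExpansion_one,
      cmap_smul_of_rat π hπ IsRatP.one]
    ext n
    simp only [PowerSeries.coeff_smul, smul_eq_mul, coeff_algebraMap_int]
    rw [← map_natCast (PowerSeries.C (R := ℤ)) D, PowerSeries.coeff_one, PowerSeries.coeff_C]
    split_ifs <;> simp
  let p : Polynomial (PowerSeries ℤ) :=
    ∑ i ∈ Finset.range (d + 1), Polynomial.C (Q i) * Polynomial.X ^ (d - i)
  have hp : Polynomial.aeval (qExpansion 1 g) p = 0 := by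
    simp only [p, map_sum, map_mul, Polynomial.aeval_C, map_pow, Polynomial.aeval_X]
    have : ∀ i ∈ Finset.range (d + 1),
        algebraMap (PowerSeries ℤ) (PowerSeries ℂ) (Q i) * qExpansion 1 g ^ (d - i) =
          (D : ℂ) • (cmap π (qExpansion 1 (c i)) * qExpansion 1 g ^ (d - i)) := by
      intro i hi
      rw [← hQ i hi, smul_mul_assoc]
    rw [Finset.sum_congr rfl this, ← Finset.smul_sum, h3, smul_zero]
  have hdeg : p.natDegree ≤ d := by
    refine Polynomial.natDegree_sum_le_of_forall_le _ _ fun i _ => ?_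
    exact (Polynomial.natDegree_C_mul_X_pow_le _ _).trans (Nat.sub_le _ _)
  have hcoeff : p.coeff d = (D : PowerSeries ℤ) := by
    simp only [p, Polynomial.finsetSum_coeff, Polynomial.coeff_C_mul, Polynomial.coeff_X_pow]
    rw [Finset.sum_eq_single 0]
    · simp [hQ0]
    · intro i hi hi0
      have : d ≠ d - i := by
        have := Finset.mem_range.mp hi
        omega
      simp [this]
    · intro h
      simp at h
  have hDne : (D : PowerSeries ℤ) ≠ 0 := natCast_powerSeries_ne_zero hD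
  have hlead : p.leadingCoeff = (D : PowerSeries ℤ) := by
    have hnat : p.natDegree = d :=
      le_antisymm hdeg (Polynomial.le_natDegree_of_ne_zero (by rw [hcoeff]; exact hDne))
    rw [Polynomial.leadingCoeff, hnat, hcoeff]
  have hint : IsIntegral (PowerSeries ℤ) ((D : PowerSeries ℤ) • qExpansion 1 g) := by
    rw [← hlead]
    exact isIntegral_leadingCoeff_smul p _ hp
  -- Step 3: conclude by integral closedness of `ℤ⟦X⟧`.
  have hab' : ((D : PowerSeries ℤ) • qExpansion 1 g) *
      algebraMap (PowerSeries ℤ) (PowerSeries ℂ) ((D₂ : PowerSeries ℤ) * QA) =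
      algebraMap (PowerSeries ℤ) (PowerSeries ℂ) ((D : PowerSeries ℤ) * ((D₁ : PowerSeries ℤ) * QB)) := by
    rw [smul_mul_assoc, hab, Algebra.smul_def, ← map_mul]
  obtain ⟨r, hr⟩ := exists_algebraMap_eq_of_isIntegral_of_mul_eq algebraMap_int_injective hint ha0 hab'
  refine ⟨D, hD, fun n => ⟨coeff n r, ?_⟩⟩
  have := congrArg (coeff n) hr
  rw [coeff_algebraMap_int, Algebra.smul_def, ← map_natCast (PowerSeries.C (R := ℤ)) D] at this
  rw [this]
  rw [PowerSeries.algebraMap_apply'', PowerSeries.map_C, PowerSeries.coeff_C_mul]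
  simp

end Fermat.Agent.S22

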