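import Mathlib
import Fermat.Prelude.Def_CuspForm_IntegralStructure
import Fermat.Agent.S22.Basic
import Fermat.Agent.S22.Nice
import Fermat.Agent.S22.Integrality
import Fermat.Agent.S22.BD
import Fermat.Agent.S23.Descent

/-!
# Integral structure project (S22/S23): final glue

* `hasIntegralStructure_of`: if the cusp forms of level `Γ₀(N)` and weight `k` are spanned by
  forms with rational `q`-expansion and every such form has bounded denominators, then the
  prelude predicate `CuspForm.HasIntegralStructure N k` holds.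
* `hasIntegralStructure_of_fraction_of_conj`: the same conclusion from the two remaining glue
  statements (`exists_fraction`, `exists_conj_cuspForm`), taken as hypotheses.
-/

set_option autoImplicit false

namespace Fermat.Agent.S22

open UpperHalfPlane ModularFormClass CongruenceSubgroup Matrix.SpecialLinearGroup
open scoped MatrixGroups ModularForm Manifold

namespace Final

/-- The `q`-expansion of a scalar multiple of a cusp form of level `Γ₀(N)`. -/
theorem qExpansion_smul_cuspForm (N : ℕ) (k : ℤ) (c : ℂ) (g : CuspForm (G0 N) k) :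
    qExpansion 1 (⇑(c • g) : ℍ → ℂ) = c • qExpansion 1 (⇑g : ℍ → ℂ) := by
  have h1 : ⇑(c • g) = c • ⇑g := by
    ext z
    simp
  rw [h1]
  exact ModularForm.qExpansion_smul one_pos (one_mem_strictPeriods_G0 N) c g

/-- A cusp form with rational `q`-expansion and bounded denominators lies in the complex span
of the integral lattice. -/
theorem mem_span_intLattice_of_bounded (N : ℕ) (k : ℤ) (g : CuspForm (G0 N) k)
    (D : ℕ) (hD : 0 < D) (hg : ∀ n, ∃ m : ℤ, (D : ℂ) * (qExpansion 1 g).coeff n = m) :
    g ∈ Submodule.span ℂ ((CuspForm.intLattice N k :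
      Submodule ℤ (CuspForm (CongruenceSubgroup.Gamma0 N) k)) :
        Set (CuspForm (CongruenceSubgroup.Gamma0 N) k)) := by
  have hD0 : (D : ℂ) ≠ 0 := Nat.cast_ne_zero.mpr hD.ne'
  have hmem : ((D : ℂ) • g : CuspForm (G0 N) k) ∈ CuspForm.intLattice N k := by
    refine Submodule.subset_span fun n => ?_
    obtain ⟨m, hm⟩ := hg n
    refine ⟨m, ?_⟩
    change (qExpansion 1 (⇑((D : ℂ) • g) : ℍ → ℂ)).coeff n = m
    rw [qExpansion_smul_cuspForm, ← hm]
    simp
  have h2 : g = (D : ℂ)⁻¹ • ((D : ℂ) • g : CuspForm (G0 N) k) := by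
    rw [smul_smul, inv_mul_cancel₀ hD0, one_smul]
  rw [h2]
  exact Submodule.smul_mem _ _ (Submodule.subset_span hmem)

end Final

/-- Pure glue: rational spanning + bounded denominators give the integral structure. -/
theorem hasIntegralStructure_of (N : ℕ) [NeZero N] (k : ℤ)
    (hspan : ∀ f : CuspForm (G0 N) k,
      f ∈ Submodule.span ℂ {g : CuspForm (G0 N) k | IsRatQ g})
    (hbd : ∀ g : CuspForm (G0 N) k, IsRatQ g →
      ∃ D : ℕ, 0 < D ∧ ∀ n, ∃ m : ℤ, (D : ℂ) * (qExpansion 1 g).coeff n = m) :
    CuspForm.HasIntegralStructure N k := by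
  unfold CuspForm.HasIntegralStructure
  rw [eq_top_iff]
  intro f _
  have hle : Submodule.span ℂ {g : CuspForm (G0 N) k | IsRatQ g} ≤
      Submodule.span ℂ ((CuspForm.intLattice N k :
        Submodule ℤ (CuspForm (CongruenceSubgroup.Gamma0 N) k)) :
          Set (CuspForm (CongruenceSubgroup.Gamma0 N) k)) := by
    refine Submodule.span_le.mpr fun g hg => ?_
    obtain ⟨D, hD, hgD⟩ := hbd g hg
    exact Final.mem_span_intLattice_of_bounded N k g D hD hgD
  exact hle (hspan f)

/-- The integral structure from the two remaining glue statements, taken as hypotheses: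
`hfrac` is the statement of `exists_fraction` and `hconj` the one of `exists_conj_cuspForm`. -/
theorem hasIntegralStructure_of_fraction_of_conj (N : ℕ) [NeZero N] (k : ℤ)
    (hfrac : ∀ f : ℍ → ℂ, IsMF (G0 N) k f →
      ∃ (w : ℤ) (U V : ℍ → ℂ), U ∈ IntSpan (G0 N) (w + k) ∧ V ∈ IntSpan (G0 N) w ∧ V ≠ 0 ∧
        ∀ z, f z * V z = U z)
    (hconj : ∀ (σ : ℂ →+* ℂ) (f : CuspForm (G0 N) k), ∃ g : CuspForm (G0 N) k,
      ∀ n, (qExpansion 1 g).coeff n = σ ((qExpansion 1 f).coeff n)) :
    CuspForm.HasIntegralStructure N k := by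
  refine hasIntegralStructure_of N k ?_ ?_
  · exact Fermat.Agent.S23.cuspForm_mem_span_rat_of_conj N k
      (fun σ f => hconj σ.toRingHom f)
  · intro g hg
    obtain ⟨w, U, V, hU, hV, hV0, hUV⟩ := hfrac (⇑g) ⟨ModularFormClass.modularForm g, rfl⟩
    obtain ⟨c, hc, hc0, -, hrel⟩ := exists_integrality_cusp N k g
    exact bounded_denominators_of N k g hg w U V hU hV hV0 hUV (Gamma0 N).index c hc hc0 hrel

end Fermat.Agent.S22
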