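import Mathlib
import Fermat.Agent.S22.Basic
import Fermat.Agent.S22.Nice
import Fermat.Agent.S22.Forms
import Fermat.Prelude.Thm_ModularForm_sturm_bound_Gamma0

/-!
# Dimension count: more than `[SL₂(ℤ) : Γ₀(N)]` forms of level `Γ₀(N)` are linearly dependent
over level one forms
-/

set_option autoImplicit false

noncomputable section

namespace Fermat.Agent.S22

open UpperHalfPlane ModularFormClass CongruenceSubgroup Matrix.SpecialLinearGroup Function
open ModularForm Module
open scoped MatrixGroups ModularForm Manifold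

namespace DimCount

theorem finrank_levelOne (t : ℕ) : finrank ℂ (ModularForm G1 ((12 * t : ℕ) : ℤ)) = t + 1 := by
  have h := dimension_level_one (12 * t) ⟨6 * t, by ring⟩
  have h2 : ¬ (12 * t ≡ 2 [MOD 12]) := by
    intro h
    have := h.symm
    simp [Nat.ModEq] at this
  rw [if_neg h2] at h
  have h3 : 12 * t / 12 = t := by omega
  rw [h3] at h
  exact finrank_eq_of_rank_eq (by exact_mod_cast h)

/-- The sum `Σ g_i u_i` as a function. -/
def comb {n : ℕ} {m : ℤ} (u : Fin n → ℍ → ℂ) (g : Fin n → ModularForm G1 m) : ℍ → ℂ :=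
  ∑ i, (g i : ℍ → ℂ) * u i

theorem comb_isMF {N : ℕ} {n : ℕ} {m w : ℤ} (u : Fin n → ℍ → ℂ)
    (hu : ∀ i, IsMF (G0 N) w (u i)) (g : Fin n → ModularForm G1 m) :
    IsMF (G0 N) (m + w) (comb u g) :=
  IsMF.sum _ fun i _ => (IsMF.restrict_G0 N ⟨g i, rfl⟩).mul (hu i)

theorem comb_add {n : ℕ} {m : ℤ} (u : Fin n → ℍ → ℂ) (g g' : Fin n → ModularForm G1 m) :
    comb u (g + g') = comb u g + comb u g' := by
  simp only [comb, Pi.add_apply, ← Finset.sum_add_distrib]
  refine Finset.sum_congr rfl fun i _ => ?_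
  ext z
  simp [add_mul]

theorem comb_smul {n : ℕ} {m : ℤ} (u : Fin n → ℍ → ℂ) (c : ℂ) (g : Fin n → ModularForm G1 m) :
    comb u (c • g) = c • comb u g := by
  simp only [comb, Pi.smul_apply, Finset.smul_sum]
  refine Finset.sum_congr rfl fun i _ => ?_
  ext z
  simp [mul_assoc]

/-- Truncated `q`-expansion of `Σ g_i u_i`, as a linear map in `g`. -/
def trunc {N : ℕ} {n : ℕ} {m w : ℤ} (B : ℕ) (u : Fin n → ℍ → ℂ)
    (hu : ∀ i, IsMF (G0 N) w (u i)) :
    (Fin n → ModularForm G1 m) →ₗ[ℂ] (Fin (B + 1) → ℂ) where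
  toFun g j := (qExpansion 1 (comb u g)).coeff j
  map_add' g g' := by
    funext j
    simp only [Pi.add_apply]
    rw [comb_add, ((comb_isMF u hu g).isNice_G0).qExpansion_add ((comb_isMF u hu g').isNice_G0),
      map_add]
  map_smul' c g := by
    funext j
    simp only [Pi.smul_apply, RingHom.id_apply, smul_eq_mul]
    rw [comb_smul, ((comb_isMF u hu g).isNice_G0).qExpansion_smul, PowerSeries.coeff_smul]
    rfl

end DimCount

open DimCount in
theorem exists_levelOne_relation (N : ℕ) [NeZero N] (w : ℤ) (n : ℕ) (u : Fin n → ℍ → ℂ)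
    (hu : ∀ i, IsMF (G0 N) w (u i)) (hn : (Gamma0 N).index < n) :
    ∃ (m : ℤ) (g : Fin n → ℍ → ℂ), (∀ i, IsMF G1 m (g i)) ∧ g ≠ 0 ∧
      ∀ z, ∑ i, g i z * u i z = 0 := by
  classical
  set d := (Gamma0 N).index with hd_def
  have hd : 0 < d := Nat.pos_of_ne_zero Subgroup.FiniteIndex.index_ne_zero
  set t : ℕ := w.toNat * d with ht
  set m : ℕ := 12 * t with hm
  set B : ℕ := (((m : ℤ) + w) * d).toNat / 12 with hB
  have hBle : B + 1 < n * (t + 1) := by
    have h1 : (((m : ℤ) + w) * d).toNat ≤ 12 * t * d + w.toNat * d := by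
      have : ((m : ℤ) + w) * d ≤ ((12 * t * d + w.toNat * d : ℕ) : ℤ) := by
        have hw : w ≤ (w.toNat : ℤ) := Int.self_le_toNat w
        have hd' : (0 : ℤ) ≤ d := by positivity
        push_cast
        nlinarith
      omega
    have h2 : B ≤ t * d + w.toNat * d := by
      rw [hB]
      calc (((m : ℤ) + w) * d).toNat / 12 ≤ (12 * t * d + w.toNat * d) / 12 :=
            Nat.div_le_div_right h1
        _ ≤ (12 * (t * d + w.toNat * d)) / 12 := by
            apply Nat.div_le_div_right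
            nlinarith
        _ = t * d + w.toNat * d := by omega
    have h3 : (d + 1) * (t + 1) ≤ n * (t + 1) := Nat.mul_le_mul_right _ hn
    nlinarith
  have hfin : finrank ℂ (Fin n → ModularForm G1 ((m : ℕ) : ℤ)) = n * (t + 1) := by
    rw [finrank_pi_fintype]
    have h1 : finrank ℂ (ModularForm G1 ((m : ℕ) : ℤ)) = t + 1 := finrank_levelOne t
    simp [h1]
  have hlt : finrank ℂ (Fin (B + 1) → ℂ) < finrank ℂ (Fin n → ModularForm G1 ((m : ℕ) : ℤ)) := by
    rw [hfin]
    simpa using hBle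
  obtain ⟨g, hgker, hg0⟩ := (Submodule.ne_bot_iff _).mp
    (LinearMap.ker_ne_bot_of_finrank_lt (f := trunc (N := N) (m := (m : ℤ)) B u hu) hlt)
  refine ⟨m, fun i => ⇑(g i), fun i => ⟨g i, rfl⟩, ?_, ?_⟩
  · intro h
    apply hg0
    funext i
    apply DFunLike.coe_injective
    exact congrFun h i
  · obtain ⟨F, hF⟩ := comb_isMF u hu g
    have hF0 : F = 0 := by
      refine ModularForm.sturm_bound_Gamma0 N F fun j hj => ?_
      rw [hF]
      have := congrFun (LinearMap.mem_ker.mp hgker) ⟨j, Nat.lt_succ_of_le hj⟩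
      simpa [trunc] using this
    intro z
    have := congrFun hF z
    rw [hF0] at this
    simpa [comb] using this.symm

end Fermat.Agent.S22
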