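import Mathlib
import Fermat.Agent.S22.Basic
import Fermat.Agent.S22.Nice
import Fermat.Agent.S22.Forms
import Fermat.Agent.S22.LevelOne
import Fermat.Agent.S22.DimCount
import Fermat.Agent.S22.Indep
import Fermat.Agent.S22.DN

/-!
# Every modular form of level `Γ₀(N)` is a quotient of two forms in the integral span

For `f` of weight `k` and level `Γ₀(N)` we produce `U, V` in the `ℂ`-span of forms with integral
`q`-expansion, `V ≠ 0`, with `f * V = U`.
-/

set_option autoImplicit false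

noncomputable section

namespace Fermat.Agent.S22

open UpperHalfPlane ModularFormClass CongruenceSubgroup Matrix.SpecialLinearGroup Function
open ModularForm EisensteinSeries
open scoped MatrixGroups ModularForm Manifold

namespace Fraction

theorem one_fun_ne_zero : (1 : ℍ → ℂ) ≠ 0 := fun h => by
  have := congrFun h UpperHalfPlane.I
  simp at this

theorem E4_fun_ne_zero : (E₄ : ℍ → ℂ) ≠ 0 := fun h => by
  have h0 : (E₄ : ModularForm 𝒮ℒ 4) = 0 := DFunLike.coe_injective (by rw [h]; rfl)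
  exact EisensteinSeries.E_ne_zero (k := 4) (by norm_num) ⟨2, rfl⟩ h0

theorem E6_fun_ne_zero : (E₆ : ℍ → ℂ) ≠ 0 := fun h => by
  have h0 : (E₆ : ModularForm 𝒮ℒ 6) = 0 := DFunLike.coe_injective (by rw [h]; rfl)
  exact EisensteinSeries.E_ne_zero (k := 6) (by norm_num) ⟨3, rfl⟩ h0

theorem mdiff_of_isMF {Γ : Subgroup (GL (Fin 2) ℝ)} {k : ℤ} {f : ℍ → ℂ} (hf : IsMF Γ k f) :
    MDiff f := by
  obtain ⟨F, rfl⟩ := hf
  exact F.holo'

theorem pow_fun_ne_zero {f : ℍ → ℂ} (hf : MDiff f) (h0 : f ≠ 0) (n : ℕ) : f ^ n ≠ 0 := by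
  induction n with
  | zero => simp
  | succ n ih =>
    rw [pow_succ]
    intro h
    have hfn : MDiff (f ^ n) := by
      have : f ^ n = fun z => f z ^ n := by ext z; simp
      rw [this]
      exact hf.pow n
    rcases (UpperHalfPlane.mul_eq_zero_iff hfn hf).mp h with h | h
    · exact ih h
    · exact h0 h

theorem E4_pow_mem (j : ℕ) : (E₄ : ℍ → ℂ) ^ j ∈ IntSpan G1 (4 * j) :=
  subset_intSpan (isMF_E4.pow j) (isIntQ_E4.pow isNice_E4 j)

theorem E6_pow_mem (j : ℕ) : (E₆ : ℍ → ℂ) ^ j ∈ IntSpan G1 (6 * j) :=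
  subset_intSpan (isMF_E6.pow j) (isIntQ_E6.pow isNice_E6 j)

theorem Dfun_pow_mem (j : ℕ) : Dfun ^ j ∈ IntSpan G1 (12 * j) :=
  subset_intSpan (isMF_Dfun.pow j) (isIntQ_Dfun.pow isNice_Dfun j)

theorem DNfun_pow_mem (N : ℕ) [NeZero N] (j : ℕ) : DNfun N ^ j ∈ IntSpan (G0 N) (12 * j) :=
  subset_intSpan ((isMF_DNfun N).pow j) ((isIntQ_DNfun N).pow (isMF_DNfun N).isNice_G0 j)

/-- the trivial fraction for `f = 0`. -/
theorem exists_fraction_zero (N : ℕ) [NeZero N] (k : ℤ) :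
    ∃ (w : ℤ) (U V : ℍ → ℂ), U ∈ IntSpan (G0 N) (w + k) ∧ V ∈ IntSpan (G0 N) w ∧ V ≠ 0 ∧
      ∀ z, (0 : ℍ → ℂ) z * V z = U z :=
  ⟨0, 0, 1, Submodule.zero_mem _, subset_intSpan IsMF.one IsIntQ.one, one_fun_ne_zero,
    fun z => by simp⟩

/-- The main case: even nonnegative weight. -/
theorem exists_fraction_even (N : ℕ) [NeZero N] (j : ℕ) (f : ℍ → ℂ)
    (hf : IsMF (G0 N) (2 * j) f) :
    ∃ (w : ℤ) (U V : ℍ → ℂ), U ∈ IntSpan (G0 N) (w + 2 * j) ∧ V ∈ IntSpan (G0 N) w ∧ V ≠ 0 ∧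
      ∀ z, f z * V z = U z := by
  classical
  set d := (Gamma0 N).index with hd_def
  have hd : 0 < d := Nat.pos_of_ne_zero Subgroup.FiniteIndex.index_ne_zero
  set W : ℤ := 6 * (j : ℤ) + 12 * ((d - 1 : ℕ) : ℤ) with hW
  -- the family of `d + 1` forms of weight `W`
  set u : Fin (d + 1) → ℍ → ℂ :=
    Fin.cons (f * (E₄ : ℍ → ℂ) ^ j * Dfun ^ (d - 1))
      (fun i : Fin d => (E₆ : ℍ → ℂ) ^ j * DNfun N ^ (i : ℕ) * Dfun ^ (d - 1 - (i : ℕ))) with hu_def
  have hu : ∀ i, IsMF (G0 N) W (u i) := by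
    intro i
    refine Fin.cases ?_ (fun i => ?_) i
    · have h1 : IsMF (G0 N) (2 * j + 4 * j + 12 * ((d - 1 : ℕ) : ℤ))
          (f * (E₄ : ℍ → ℂ) ^ j * Dfun ^ (d - 1)) :=
        (hf.mul ((isMF_E4.pow j).restrict_G0 N)).mul ((isMF_Dfun.pow (d - 1)).restrict_G0 N)
      simpa [hu_def] using h1.cast (by rw [hW]; ring)
    · have h1 : IsMF (G0 N) (6 * j + 12 * ((i : ℕ) : ℤ) + 12 * ((d - 1 - (i : ℕ) : ℕ) : ℤ))
          ((E₆ : ℍ → ℂ) ^ j * DNfun N ^ (i : ℕ) * Dfun ^ (d - 1 - (i : ℕ))) :=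
        (((isMF_E6.pow j).restrict_G0 N).mul ((isMF_DNfun N).pow i)).mul
          ((isMF_Dfun.pow (d - 1 - (i : ℕ))).restrict_G0 N)
      have hi := i.2
      simpa [hu_def] using h1.cast (by rw [hW]; omega)
  obtain ⟨m, g, hg, hg0, hrel⟩ := exists_levelOne_relation N W (d + 1) u hu (by omega)
  -- rewrite the relation
  have hrel' : ∀ z, g 0 z * (f z * (E₄ : ℍ → ℂ) z ^ j * Dfun z ^ (d - 1)) +
      (E₆ : ℍ → ℂ) z ^ j * ∑ i : Fin d, g i.succ z * DNfun N z ^ (i : ℕ) *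
        Dfun z ^ (d - 1 - (i : ℕ)) = 0 := by
    intro z
    have h := hrel z
    rw [Fin.sum_univ_succ] at h
    simp only [hu_def, Fin.cons_zero, Fin.cons_succ, Pi.mul_apply, Pi.pow_apply] at h
    rw [← h, Finset.mul_sum]
    congr 1
    refine Finset.sum_congr rfl fun i _ => ?_
    ring
  have hgd : ∀ i, MDiff (g i) := fun i => mdiff_of_isMF (hg i)
  have hE4d : MDiff (E₄ : ℍ → ℂ) := mdiff_of_isMF isMF_E4
  have hE6d : MDiff (E₆ : ℍ → ℂ) := mdiff_of_isMF isMF_E6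
  -- `g 0 ≠ 0`
  have hg00 : g 0 ≠ 0 := by
    intro h0
    apply hg0
    -- extend `g ∘ succ` to a sequence
    set g' : ℕ → ℍ → ℂ := fun i => if h : i < d then g (Fin.succ ⟨i, h⟩) else 0 with hg'
    have hg'i : ∀ i : Fin d, g' i = g i.succ := fun i => by
      simp only [hg']
      rw [dif_pos i.2]
    have hg'MF : ∀ i, IsMF G1 m (g' i) := by
      intro i
      simp only [hg']
      split_ifs with h
      · exact hg _
      · exact IsMF.zero
    set S : ℍ → ℂ := fun z => ∑ i : Fin d, g i.succ z * DNfun N z ^ (i : ℕ) *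
        Dfun z ^ (d - 1 - (i : ℕ)) with hS
    have hSd : MDiff S := by
      have hDN : MDiff (DNfun N) := mdiff_of_isMF (isMF_DNfun N)
      have hD : MDiff Dfun := mdiff_of_isMF isMF_Dfun
      have : S = ∑ i : Fin d, (g i.succ * DNfun N ^ (i : ℕ) * Dfun ^ (d - 1 - (i : ℕ))) := by
        ext z
        simp [hS]
      rw [this]
      have hsum : IsMF (G0 N) (m + 12 * ((d - 1 : ℕ) : ℤ))
          (∑ i : Fin d, (g i.succ * DNfun N ^ (i : ℕ) * Dfun ^ (d - 1 - (i : ℕ)))) := by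
        refine IsMF.sum _ fun i _ => ?_
        have h1 := (((hg i.succ).restrict_G0 N).mul ((isMF_DNfun N).pow i)).mul
          ((isMF_Dfun.pow (d - 1 - (i : ℕ))).restrict_G0 N)
        have hi := i.2
        exact h1.cast (by omega)
      exact mdiff_of_isMF hsum
    have hES : (E₆ : ℍ → ℂ) ^ j * S = 0 := by
      ext z
      have h := hrel' z
      rw [h0] at h
      simpa [hS] using h
    have hE6j : MDiff ((E₆ : ℍ → ℂ) ^ j) := by
      have : (E₆ : ℍ → ℂ) ^ j = fun z => (E₆ : ℍ → ℂ) z ^ j := by ext z; simp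
      rw [this]
      exact hE6d.pow j
    have hS0 : S = 0 :=
      ((UpperHalfPlane.mul_eq_zero_iff hE6j hSd).mp hES).resolve_left
        (pow_fun_ne_zero hE6d E6_fun_ne_zero j)
    have hind := indep_DN N m g' hg'MF (fun z => by
      have h := congrFun hS0 z
      simp only [hS, Pi.zero_apply] at h
      rw [← h, ← Fin.sum_univ_eq_sum_range
        (fun i => g' i z * DNfun N z ^ i * Dfun z ^ ((Gamma0 N).index - 1 - i)) d]
      refine Finset.sum_congr rfl fun i _ => ?_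
      rw [hg'i i])
    funext i
    refine Fin.cases ?_ (fun i => ?_) i
    · exact h0
    · have := hind i i.2
      rw [hg'i i] at this
      exact this
  -- the fraction
  obtain ⟨G0', hG0'⟩ := hg 0
  have hg0mem : g 0 ∈ IntSpan G1 m := hG0' ▸ levelOne_mem_intSpan m G0'
  have hgmem : ∀ i, g i ∈ IntSpan G1 m := fun i => by
    obtain ⟨G, hG⟩ := hg i
    exact hG ▸ levelOne_mem_intSpan m G
  have hp1 := one_mem_strictPeriods_G1
  have hpN := one_mem_strictPeriods_G0 N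
  refine ⟨m + 4 * j + 12 * ((d - 1 : ℕ) : ℤ),
    -(∑ i : Fin d, (g i.succ * (E₆ : ℍ → ℂ) ^ j * DNfun N ^ (i : ℕ) * Dfun ^ (d - 1 - (i : ℕ)))),
    g 0 * (E₄ : ℍ → ℂ) ^ j * Dfun ^ (d - 1), ?_, ?_, ?_, ?_⟩
  · refine Submodule.neg_mem _ (Submodule.sum_mem _ fun i _ => ?_)
    have h1 : g i.succ * (E₆ : ℍ → ℂ) ^ j * DNfun N ^ (i : ℕ) * Dfun ^ (d - 1 - (i : ℕ)) ∈
        IntSpan (G0 N) (m + 6 * j + 12 * ((i : ℕ) : ℤ) + 12 * ((d - 1 - (i : ℕ) : ℕ) : ℤ)) :=
      IntSpan.mul hpN (IntSpan.mul hpN (IntSpan.restrict_G0 N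
        (IntSpan.mul hp1 (hgmem i.succ) (E6_pow_mem j))) (DNfun_pow_mem N i))
        (IntSpan.restrict_G0 N (Dfun_pow_mem (d - 1 - (i : ℕ))))
    have hi := i.2
    exact IntSpan.cast (by omega) h1
  · exact IntSpan.restrict_G0 N
      (IntSpan.mul hp1 (IntSpan.mul hp1 hg0mem (E4_pow_mem j)) (Dfun_pow_mem (d - 1)))
  · intro hV
    have h1 : g 0 * (E₄ : ℍ → ℂ) ^ j = 0 := by
      ext z
      have h := congrFun hV z
      simp only [Pi.mul_apply, Pi.pow_apply, Pi.zero_apply] at h ⊢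
      exact (mul_eq_zero.mp h).resolve_right (pow_ne_zero _ (Dfun_ne_zero z))
    have hE4j : MDiff ((E₄ : ℍ → ℂ) ^ j) := by
      have : (E₄ : ℍ → ℂ) ^ j = fun z => (E₄ : ℍ → ℂ) z ^ j := by ext z; simp
      rw [this]
      exact hE4d.pow j
    rcases (UpperHalfPlane.mul_eq_zero_iff (hgd 0) hE4j).mp h1 with h | h
    · exact hg00 h
    · exact pow_fun_ne_zero hE4d E4_fun_ne_zero j h
  · intro z
    have h := hrel' z
    simp only [Pi.neg_apply, Finset.sum_apply, Pi.mul_apply, Pi.pow_apply]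
    have h2 : ∑ i : Fin d, g i.succ z * (E₆ : ℍ → ℂ) z ^ j * DNfun N z ^ (i : ℕ) *
        Dfun z ^ (d - 1 - (i : ℕ)) = (E₆ : ℍ → ℂ) z ^ j * ∑ i : Fin d, g i.succ z *
        DNfun N z ^ (i : ℕ) * Dfun z ^ (d - 1 - (i : ℕ)) := by
      rw [Finset.mul_sum]
      refine Finset.sum_congr rfl fun i _ => ?_
      ring
    rw [h2]
    linear_combination h

end Fraction

open Fraction in
/-- **Fraction**: every modular form of level `Γ₀(N)` is a quotient `U / V` of two elements of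
the integral spans. -/
theorem exists_fraction (N : ℕ) [NeZero N] (k : ℤ) (f : ℍ → ℂ) (hf : IsMF (G0 N) k f) :
    ∃ (w : ℤ) (U V : ℍ → ℂ), U ∈ IntSpan (G0 N) (w + k) ∧ V ∈ IntSpan (G0 N) w ∧ V ≠ 0 ∧
      ∀ z, f z * V z = U z := by
  by_cases hk : 0 ≤ k ∧ Even k
  · obtain ⟨hk0, j, hj⟩ := hk
    obtain ⟨j', rfl⟩ := Int.eq_ofNat_of_zero_le (show 0 ≤ j by omega)
    have hk2 : k = 2 * (j' : ℤ) := by omega
    subst hk2
    exact exists_fraction_even N j' f hf
  · have hf0 : f = 0 := by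
      obtain ⟨F, rfl⟩ := hf
      rcases lt_or_ge k 0 with hneg | hpos
      · have : F = 0 := ModularForm.isZero_of_neg_weight hneg F
        rw [this]; rfl
      · have hodd : Odd k := by
          rw [← Int.not_even_iff_odd]
          exact fun he => hk ⟨hpos, he⟩
        have hneg1 : (-1 : GL (Fin 2) ℝ) ∈ G0 N := by
          refine ⟨-1, ?_, ?_⟩
          · simp [CongruenceSubgroup.Gamma0_mem]
          · ext i j; fin_cases i <;> fin_cases j <;> simp
        have : F = 0 := ModularForm.eq_zero_of_neg_one_mem hneg1 hodd F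
        rw [this]; rfl
    subst hf0
    exact exists_fraction_zero N k

end Fermat.Agent.S22
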