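import Mathlib
import Fermat.Prelude.Def_CuspForm_IntegralStructure
import Fermat.Agent.S22.Basic
import Fermat.Agent.S22.Fraction
import Fermat.Agent.S22.Conj
import Fermat.Agent.S22.Final

/-!
# The integral structure on `S_k(Γ₀(N))`

Every space of cusp forms of level `Γ₀(N)` is spanned over `ℂ` by forms with integral
`q`-expansion.
-/

set_option autoImplicit false

namespace Fermat.Agent.S22

open UpperHalfPlane ModularFormClass CongruenceSubgroup

/-- Coefficientwise conjugation of cusp forms of level `Γ₀(N)` by a ring endomorphism of `ℂ`. -/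
theorem exists_conj_cuspForm (N : ℕ) [NeZero N] (k : ℤ) (σ : ℂ →+* ℂ)
    (f : CuspForm (G0 N) k) :
    ∃ g : CuspForm (G0 N) k, ∀ n, (qExpansion 1 g).coeff n = σ ((qExpansion 1 f).coeff n) :=
  exists_conj_cuspForm_of N k σ f
    (exists_fraction N k (⇑f) ⟨ModularFormClass.modularForm f, rfl⟩)

/-- `S_k(Γ₀(N))` has an integral structure, for every weight and level. -/
theorem hasIntegralStructure (N : ℕ) [NeZero N] (k : ℤ) : CuspForm.HasIntegralStructure N k :=
  hasIntegralStructure_of_fraction_of_conj N k (fun f hf => exists_fraction N k f hf)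
    (fun σ f => exists_conj_cuspForm N k σ f)

end Fermat.Agent.S22
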