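import Mathlib
import Fermat.Prelude.Def_CuspForm_HeckeAlgebra
import Fermat.Prelude.Def_CuspForm_IntegralStructure
import Fermat.Prelude.Thm_CuspForm_intLattice_fg
import Fermat.Prelude.Thm_CuspForm_mem_intLattice_of_mem_heckeAlgebra
import Fermat.Prelude.Thm_CongruenceSubgroup_one_mem_strictPeriods_Gamma0

/-!
# S22 endgame: the Hecke algebra is finite over `ℤ` once an integral structure exists
-/

set_option autoImplicit false

namespace Fermat.Agent.S22

open CuspForm ModularFormClass CongruenceSubgroup UpperHalfPlane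

namespace HeckeFinite

variable {N : ℕ}

/-- Cusp forms of weight `≤ 0` on `Γ₀(N)` vanish. -/
theorem cuspForm_eq_zero_of_weight_le_zero [NeZero N] {k : ℤ} (hk : k ≤ 0)
    (f : CuspForm (Gamma0 N) k) : f = 0 := by
  rcases lt_or_eq_of_le hk with hneg | rfl
  · have h0 : (ModularFormClass.modularForm f : ModularForm (Gamma0 N) k) = 0 :=
      ModularForm.isZero_of_neg_weight hneg _
    have hcoe : (⇑f : ℍ → ℂ) = 0 := by
      have := congrArg (fun F : ModularForm (Gamma0 N) k => (⇑F : ℍ → ℂ)) h0
      simpa using this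
    exact DFunLike.coe_injective (hcoe.trans FunLike.coe_zero.symm)
  · obtain ⟨c, hc⟩ := ModularForm.eq_const_of_weight_zero
      (ModularFormClass.modularForm f : ModularForm (Gamma0 N) 0)
    have hcf : (⇑f : ℍ → ℂ) = Function.const ℍ c := by
      rw [← hc]; rfl
    have hcusp : IsCusp OnePoint.infty
        (Subgroup.map (Matrix.SpecialLinearGroup.mapGL ℝ) (Gamma0 N)) :=
      Subgroup.isCusp_of_mem_strictPeriods one_pos
        (CongruenceSubgroup.one_mem_strictPeriods_Gamma0 N)
    have : Fact (IsCusp OnePoint.infty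
        (Subgroup.map (Matrix.SpecialLinearGroup.mapGL ℝ) (Gamma0 N))) := ⟨hcusp⟩
    have hz : IsZeroAtImInfty (⇑f : ℍ → ℂ) := CuspFormClass.zero_at_infty f
    rw [hcf] at hz
    have hc0 : c = 0 := by
      have h1 : Filter.Tendsto (Function.const ℍ c) atImInfty (nhds 0) := hz
      have h2 : Filter.Tendsto (Function.const ℍ c) atImInfty (nhds c) := tendsto_const_nhds
      exact tendsto_nhds_unique h2 h1
    apply DFunLike.coe_injective
    rw [hcf, hc0]
    rfl

theorem exists_finset_span_top [NeZero N] {k : ℤ} (h : CuspForm.HasIntegralStructure N k) :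
    ∃ G : Finset (CuspForm (Gamma0 N) k),
      (∀ g ∈ G, g ∈ CuspForm.intLattice N k) ∧
      Submodule.span ℂ (G : Set (CuspForm (Gamma0 N) k)) = ⊤ := by
  obtain ⟨G, hG⟩ := CuspForm.intLattice_fg N k
  refine ⟨G, fun g hg => hG ▸ Submodule.subset_span hg, ?_⟩
  rw [eq_top_iff, ← h]
  apply Submodule.span_le.2
  intro f hf
  have h1 : f ∈ CuspForm.intLattice N k := hf
  rw [← hG] at h1
  exact Submodule.span_subset_span ℤ ℂ _ h1

end HeckeFinite

open HeckeFinite in
theorem moduleFinite_heckeAlgebra_of_hasIntegralStructure (N : ℕ) [NeZero N] (k : ℤ) (S : Set ℕ)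
    (h : 1 ≤ k → CuspForm.HasIntegralStructure N k) :
    Module.Finite ℤ (CuspForm.heckeAlgebra N k S) := by
  classical
  by_cases hk : 1 ≤ k
  · obtain ⟨G, hGL, hG⟩ := exists_finset_span_top (h hk)
    have hL : IsNoetherian ℤ (CuspForm.intLattice N k) :=
      isNoetherian_of_fg_of_noetherian _ (CuspForm.intLattice_fg N k)
    let φ : CuspForm.heckeAlgebra N k S →ₗ[ℤ] (G → CuspForm.intLattice N k) :=
      { toFun := fun T g => ⟨T.1 g.1,
          CuspForm.mem_intLattice_of_mem_heckeAlgebra hk T.2 (hGL g.1 g.2)⟩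
        map_add' := fun T T' => by
          funext g
          apply Subtype.ext
          simp
        map_smul' := fun c T => by
          funext g
          apply Subtype.ext
          simp }
    have hinj : Function.Injective φ := by
      intro T T' hTT'
      apply Subtype.ext
      apply LinearMap.ext_on hG
      intro g hg
      have := congrArg (fun F => ((F ⟨g, hg⟩ : CuspForm.intLattice N k) :
        CuspForm (Gamma0 N) k)) hTT'
      exact this
    exact Module.Finite.of_injective φ hinj
  · have hk0 : k ≤ 0 := by omega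
    have hsub : Subsingleton (CuspForm (Gamma0 N) k) :=
      ⟨fun f g => by rw [cuspForm_eq_zero_of_weight_le_zero hk0 f,
        cuspForm_eq_zero_of_weight_le_zero hk0 g]⟩
    have hsubE : Subsingleton (Module.End ℂ (CuspForm (Gamma0 N) k)) :=
      ⟨fun a b => LinearMap.ext fun x => Subsingleton.elim _ _⟩
    have hsubA : Subsingleton (CuspForm.heckeAlgebra N k S) :=
      ⟨fun a b => Subtype.ext (Subsingleton.elim _ _)⟩
    exact Module.Finite.of_finite

end Fermat.Agent.S22
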