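import Mathlib

/-!
Core definitions for the Eichler-integral lattice proof of S22
(finite generation of the Hecke algebra over the integers).
-/

set_option autoImplicit false

namespace Fermat.Agent.S22

open UpperHalfPlane
open scoped MatrixGroups ModularForm Manifold

/-- Complex derivative of a function on the upper half plane. -/
noncomputable def dH (F : ℍ → ℂ) : ℍ → ℂ := fun τ => deriv (F ∘ ofComplex) (τ : ℂ)

/-- Iterated complex derivative of a function on the upper half plane. -/
noncomputable def dHn (n : ℕ) (F : ℍ → ℂ) : ℍ → ℂ := dH^[n] F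

/-- Eichler slash (weight `-w`, no determinant factor):
`(F ‖ g) τ = denom g τ ^ w * F (g • τ)`. -/
noncomputable def eSlash (w : ℕ) (g : GL (Fin 2) ℝ) (F : ℍ → ℂ) : ℍ → ℂ :=
  fun τ => denom g τ ^ w * F (g • τ)

end Fermat.Agent.S22
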